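import Fermat.Agent.H30.ORD.DescGauss
import Fermat.Agent.H84.ORD.NodalSpecB
import Fermat.Agent.H84.ORD.NodalModelAPI
import Fermat.Agent.H5.E6.ResAlgebraic

/-!
# P-ORD, block B1 : the SHARED DESCENT DICTIONARY, part 3 : centres (helper30)

`ι : K₁ → ℚ̄`, `A₁ = A.comap ι`, `E₁ = ModelField K₁ N`, `B₁ = chartClosure A₁ E₁ y₁` a chart of
the model with `bc y₁ ∈ V_P = nmComp A P hdeg` (e.g. `bc y₁ = nmY A P`), `P` a place of `F`.

* `ddCentre ι A N P hdeg y₁ hy : Ideal B₁` : the centre of `P` on the `K₁`-chart,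
  `mem_ddCentre_iff : b ∈ ddCentre ↔ bc b ∈ nmMax A P`;
* `ddCentre_isMaximal` : it is a maximal ideal (`K₁` arbitrary: `P` need not be rational);
* `algebraMap_mem_ddCentre` : it contains the non-units of `A₁` (the uniformiser);
* `ddCentre_through_oo`, `ddCentre_through_zero` : if the centre of `P` lies on `C_∞` (`C_0`) in
  the sense `NmIdealOo` (`NmIdealZero`), then `vInf` (`vZero W₁`) passes through `ddCentre`
  (`= Fermat.Agent.H11.SS2.Through`, `Fermat.Agent.H45.SSOnInfty`), for EVERY `K₁`;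
* `exists_not_through_oo`, `exists_not_through_zero` : if not, then `vInf` (`vZero W₁`) does
  not pass through `ddCentre` for every `K₁` containing a suitable number field.
-/

set_option autoImplicit false
set_option linter.unusedSectionVars false
set_option linter.unusedVariables false
set_option linter.style.haveILetI false
set_option synthInstance.maxHeartbeats 400000
set_option maxHeartbeats 1000000

noncomputable section

namespace Fermat.Agent.H30.ORD

open Polynomial ModularCurve AlgebraicCurve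
open Fermat.Agent.H22.KL Fermat.Agent.H9.E6 Fermat.Agent.H84.ORD Fermat.Agent.H72.FF
open Fermat.Agent.H7.SS Fermat.Agent.H7.SS2 Fermat.Agent.H66
open Fermat.Agent.H93.KL (klBc)

/-! ### Residues of units of `A` are roots of monic polynomials over `A₁` with unit constant
term -/

section Res

variable {K₁ : Type} [Field K₁] [Algebra ℚ K₁] (ι : K₁ →+* Qb) (A : ValuationSubring Qb)

theorem dd_halg (y : Qb) : ∃ p : K₁[X], p ≠ 0 ∧ Polynomial.eval₂ ι y p = 0 := by
  have hy : IsAlgebraic ℚ y := (AlgebraicClosure.isAlgebraic ℚ).isAlgebraic y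
  obtain ⟨p, hp, hpy⟩ := hy
  refine ⟨p.map (algebraMap ℚ K₁), ?_, ?_⟩
  · exact (Polynomial.map_ne_zero_iff (algebraMap ℚ K₁).injective).2 hp
  · rw [Polynomial.eval₂_map]
    have e : ι.comp (algebraMap ℚ K₁) = algebraMap ℚ Qb := Subsingleton.elim _ _
    rw [e]
    exact hpy

/-- a unit `c` of `A` is, modulo `𝔪_A`, a root of a monic polynomial over `A₁ = A ∩ K₁` with
unit constant term -/
theorem exists_monic_unit_root (c : ↥A) (hc : IsUnit c) :
    ∃ H : (↥(A.comap ι))[X], H.Monic ∧ IsUnit (H.coeff 0) ∧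
      Polynomial.eval₂ (comapHom ι A) c H ∈ IsLocalRing.maximalIdeal ↥A := by
  classical
  set z : IsLocalRing.ResidueField ↥A := IsLocalRing.residue ↥A c with hz
  have hz0 : z ≠ 0 := by
    intro h0
    rw [hz, IsLocalRing.residue_eq_zero_iff] at h0
    exact (IsLocalRing.mem_maximalIdeal _).1 h0 hc
  obtain ⟨g, hgm, hg⟩ := Fermat.Agent.H5.E6.resAlgebraic K₁ Qb ι (dd_halg ι) A z
  obtain ⟨h, hgh, hXh⟩ :=
    Polynomial.exists_eq_pow_rootMultiplicity_mul_and_not_dvd g hgm.ne_zero 0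
  rw [map_zero, sub_zero] at hgh hXh
  have hhm : h.Monic := by
    have h1 : (X ^ g.rootMultiplicity 0 * h).Monic := hgh ▸ hgm
    exact (Polynomial.monic_X_pow _).of_mul_monic_left h1
  have hh0 : h.coeff 0 ≠ 0 := fun h0 => hXh (Polynomial.X_dvd_iff.2 h0)
  have hhz : Polynomial.eval₂ (resMap ι A) z h = 0 := by
    rw [hgh, Polynomial.eval₂_mul, Polynomial.eval₂_pow, Polynomial.eval₂_X] at hg
    rcases mul_eq_zero.1 hg with h1 | h1
    · exact absurd h1 (pow_ne_zero _ hz0)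
    · exact h1
  obtain ⟨H, hH, -, hHm⟩ := Polynomial.lifts_and_natDegree_eq_and_monic
    (Polynomial.mem_lifts_of_surjective
      (f := IsLocalRing.residue ↥(A.comap ι)) IsLocalRing.residue_surjective h) hhm
  refine ⟨H, hHm, ?_, ?_⟩
  · have h1 : IsLocalRing.residue ↥(A.comap ι) (H.coeff 0) ≠ 0 := by
      rw [← Polynomial.coeff_map, hH]
      exact hh0
    by_contra hu
    exact h1 ((IsLocalRing.residue_eq_zero_iff _).2 ((IsLocalRing.mem_maximalIdeal _).2 hu))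
  · rw [← IsLocalRing.residue_eq_zero_iff, Polynomial.hom_eval₂]
    have e : (IsLocalRing.residue ↥A).comp (comapHom ι A) =
        (resMap ι A).comp (IsLocalRing.residue ↥(A.comap ι)) := by
      ext a
      exact (resMap_residue ι A a).symm
    rw [e, ← Polynomial.eval₂_map, hH]
    exact hhz

end Res

/-! ### The centre of a place on a chart of the model -/

section Centre

variable {K₁ : Type} [Field K₁] [Algebra ℚ K₁] (ι : K₁ →+* Qb) (A : ValuationSubring Qb)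
  (N : ℕ) [Algebra ↥(A.comap ι) (ModelField K₁ N)]
  [IsScalarTower ↥(A.comap ι) K₁ (ModelField K₁ N)]
  (P : Place Qb (FLb N)) (hdeg : P.deg = 1)
  (y₁ : ModelField K₁ N) (hy : ddBc ι N y₁ ∈ nmComp A P hdeg)

include hy in
theorem ddBc_mem_nmComp (b : ↥(chartClosure ↥(A.comap ι) (ModelField K₁ N) y₁)) :
    ddBc ι N (b : ModelField K₁ N) ∈ nmComp A P hdeg :=
  nmChart_le A (nmComp A P hdeg) (fun _ hc => algebraMap_mem_nmComp A P hdeg hc) hy
    (ddBc_mem_nmChart ι A N y₁ _ b.2)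

/-- `B₁ → V_P`, the base change -/
def ddRho : ↥(chartClosure ↥(A.comap ι) (ModelField K₁ N) y₁) →+* ↥(nmComp A P hdeg) :=
  RingHom.codRestrict
    ((ddBc ι N).comp (chartClosure ↥(A.comap ι) (ModelField K₁ N) y₁).toSubring.subtype)
    (nmComp A P hdeg) (fun b => ddBc_mem_nmComp ι A N P hdeg y₁ hy b)

theorem coe_ddRho (b : ↥(chartClosure ↥(A.comap ι) (ModelField K₁ N) y₁)) :
    ((ddRho ι A N P hdeg y₁ hy b : ↥(nmComp A P hdeg)) : FLb N) =
      ddBc ι N (b : ModelField K₁ N) := rfl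

/-- **the centre of `P` on the `K₁`-chart `B₁`** -/
def ddCentre : Ideal ↥(chartClosure ↥(A.comap ι) (ModelField K₁ N) y₁) :=
  Ideal.comap (ddRho ι A N P hdeg y₁ hy) (IsLocalRing.maximalIdeal ↥(nmComp A P hdeg))

theorem mem_ddCentre_iff (b : ↥(chartClosure ↥(A.comap ι) (ModelField K₁ N) y₁)) :
    b ∈ ddCentre ι A N P hdeg y₁ hy ↔ ddBc ι N (b : ModelField K₁ N) ∈ nmMax A P := by
  rw [← mem_nonunits_nmComp_iff A P hdeg, ValuationSubring.mem_nonunits_iff_exists_mem_maximalIdeal]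
  constructor
  · intro h
    exact ⟨ddBc_mem_nmComp ι A N P hdeg y₁ hy b, h⟩
  · intro h
    obtain ⟨h1, h2⟩ := h
    exact h2

instance ddCentre_isPrime : (ddCentre ι A N P hdeg y₁ hy).IsPrime :=
  Ideal.comap_isPrime _ _

/-- the constants of `V_P` : `A → V_P` -/
def ddTheta : ↥A →+* ↥(nmComp A P hdeg) :=
  RingHom.codRestrict ((algebraMap Qb (FLb N)).comp A.subtype) (nmComp A P hdeg)
    (fun a => algebraMap_mem_nmComp A P hdeg a.2)

theorem ddTheta_mem_maximalIdeal {a : ↥A} (ha : a ∈ IsLocalRing.maximalIdeal ↥A) :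
    ddTheta A N P hdeg a ∈ IsLocalRing.maximalIdeal ↥(nmComp A P hdeg) := by
  have h1 : ((ddTheta A N P hdeg a : ↥(nmComp A P hdeg)) : FLb N) ∈
      (nmComp A P hdeg).nonunits := by
    rw [mem_nonunits_nmComp_iff]
    refine ⟨(a : Qb), ?_, nm_hasValue_const P _⟩
    rw [ValuationSubring.mem_nonunits_iff_exists_mem_maximalIdeal]
    exact ⟨a.2, ha⟩
  rw [ValuationSubring.mem_nonunits_iff_exists_mem_maximalIdeal] at h1
  exact h1.2

theorem ddRho_algebraMap (a : ↥(A.comap ι)) :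
    ddRho ι A N P hdeg y₁ hy
        (algebraMap ↥(A.comap ι) ↥(chartClosure ↥(A.comap ι) (ModelField K₁ N) y₁) a) =
      ddTheta A N P hdeg (comapHom ι A a) := by
  apply Subtype.ext
  rw [coe_ddRho]
  show ddBc ι N (algebraMap ↥(A.comap ι) (ModelField K₁ N) a) = _
  rw [ddBc_algebraMap_comap]
  rfl

/-- the non-units of `A₁` lie in the centre -/
theorem algebraMap_mem_ddCentre {a : ↥(A.comap ι)} (ha : ¬ IsUnit a) :
    algebraMap ↥(A.comap ι) ↥(chartClosure ↥(A.comap ι) (ModelField K₁ N) y₁) a ∈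
      ddCentre ι A N P hdeg y₁ hy := by
  rw [ddCentre, Ideal.mem_comap, ddRho_algebraMap]
  apply ddTheta_mem_maximalIdeal
  rw [IsLocalRing.mem_maximalIdeal, mem_nonunits_iff]
  intro hu
  apply ha
  -- a unit of `A` lying in `K₁` is a unit of `A₁`
  obtain ⟨u, hu'⟩ := hu
  have hane : (a : K₁) ≠ 0 := by
    intro h0
    have h00 : (comapHom ι A a : ↥A) = 0 :=
      Subtype.ext (by rw [comapHom_coe, h0, map_zero]; rfl)
    exact u.ne_zero (hu'.trans h00)
  have hinv : (a : K₁)⁻¹ ∈ A.comap ι := by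
    show ι ((a : K₁)⁻¹) ∈ A
    rw [map_inv₀]
    have h1 : ((u⁻¹ : (↥A)ˣ) : ↥A) * comapHom ι A a = 1 := by
      rw [← hu']
      exact u.inv_mul
    have h2 : (((u⁻¹ : (↥A)ˣ) : ↥A) : Qb) * ι (a : K₁) = 1 := congrArg Subtype.val h1
    have h3 : (ι (a : K₁))⁻¹ = (((u⁻¹ : (↥A)ˣ) : ↥A) : Qb) :=
      (eq_inv_of_mul_eq_one_left h2).symm
    rw [h3]
    exact ((u⁻¹ : (↥A)ˣ) : ↥A).2
  exact IsUnit.of_mul_eq_one ⟨(a : K₁)⁻¹, hinv⟩ (Subtype.ext (mul_inv_cancel₀ hane))

/-- **the centre is a maximal ideal** -/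
theorem ddCentre_isMaximal : (ddCentre ι A N P hdeg y₁ hy).IsMaximal := by
  classical
  rw [Ideal.isMaximal_iff]
  refine ⟨?_, fun J b hJ hb hbJ => ?_⟩
  · intro h1
    exact (Ideal.IsPrime.ne_top (ddCentre_isPrime ι A N P hdeg y₁ hy))
      ((Ideal.eq_top_iff_one _).2 h1)
  · -- the value of `b` at `P`
    obtain ⟨c, hcA, hcv⟩ := ddBc_mem_nmComp ι A N P hdeg y₁ hy b
    have hcu : c ∉ A.nonunits := by
      intro hc
      exact hb ((mem_ddCentre_iff ι A N P hdeg y₁ hy b).2 ⟨c, hc, hcv⟩)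
    have hcunit : IsUnit (⟨c, hcA⟩ : ↥A) := by
      by_contra hnu
      apply hcu
      rw [ValuationSubring.mem_nonunits_iff_exists_mem_maximalIdeal]
      exact ⟨hcA, (IsLocalRing.mem_maximalIdeal _).2 hnu⟩
    obtain ⟨H, hHm, hH0, hHc⟩ := exists_monic_unit_root ι A ⟨c, hcA⟩ hcunit
    -- `ρ b ≡ θ c`
    set ρ := ddRho ι A N P hdeg y₁ hy with hρ
    set θ := ddTheta A N P hdeg with hθ
    set π := IsLocalRing.residue ↥(nmComp A P hdeg) with hπ
    have hbc : π (ρ b) = π (θ ⟨c, hcA⟩) := by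
      rw [← sub_eq_zero, ← map_sub, hπ, IsLocalRing.residue_eq_zero_iff]
      have h1 : ((ρ b - θ ⟨c, hcA⟩ : ↥(nmComp A P hdeg)) : FLb N) ∈
          (nmComp A P hdeg).nonunits := by
        rw [mem_nonunits_nmComp_iff]
        refine ⟨0, ?_, ?_⟩
        · rw [ValuationSubring.mem_nonunits_iff_exists_mem_maximalIdeal]
          exact ⟨A.zero_mem, Ideal.zero_mem _⟩
        · have := nm_hasValue_sub P hcv (nm_hasValue_const P c)
          rw [sub_self] at this
          exact this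
      rw [ValuationSubring.mem_nonunits_iff_exists_mem_maximalIdeal] at h1
      exact h1.2
    -- `H(b) ∈ 𝔪₁`
    have hHb : aeval b H ∈ ddCentre ι A N P hdeg y₁ hy := by
      rw [ddCentre, Ideal.mem_comap, ← IsLocalRing.residue_eq_zero_iff, ← hρ, ← hπ,
        Polynomial.aeval_def, Polynomial.hom_eval₂, Polynomial.hom_eval₂, hbc]
      have e : (π.comp ρ).comp
          (algebraMap ↥(A.comap ι) ↥(chartClosure ↥(A.comap ι) (ModelField K₁ N) y₁)) =
          (π.comp θ).comp (comapHom ι A) := by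
        ext a
        simp only [RingHom.comp_apply]
        rw [hρ, ddRho_algebraMap]
      have e' : π.comp (ρ.comp
          (algebraMap ↥(A.comap ι) ↥(chartClosure ↥(A.comap ι) (ModelField K₁ N) y₁))) =
          (π.comp θ).comp (comapHom ι A) := by
        rw [← e]
        rfl
      rw [e', ← RingHom.comp_apply π θ, ← Polynomial.hom_eval₂, RingHom.comp_apply, hπ,
        IsLocalRing.residue_eq_zero_iff]
      exact ddTheta_mem_maximalIdeal A N P hdeg hHc
    -- `H(b) = b * H'(b) + H(0)`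
    have hdec : aeval b H = b * aeval b H.divX +
        algebraMap ↥(A.comap ι) ↥(chartClosure ↥(A.comap ι) (ModelField K₁ N) y₁)
          (H.coeff 0) := by
      conv_lhs => rw [← Polynomial.divX_mul_X_add H]
      rw [map_add, map_mul, aeval_X, aeval_C, mul_comm]
    obtain ⟨a', ha'⟩ := hH0.exists_left_inv
    have h1J : aeval b H ∈ J := hJ hHb
    have h2J : b * aeval b H.divX ∈ J := Ideal.mul_mem_right _ _ hbJ
    have h3J : algebraMap ↥(A.comap ι) ↥(chartClosure ↥(A.comap ι) (ModelField K₁ N) y₁)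
        (H.coeff 0) ∈ J := by
      have : algebraMap ↥(A.comap ι) ↥(chartClosure ↥(A.comap ι) (ModelField K₁ N) y₁)
          (H.coeff 0) = aeval b H - b * aeval b H.divX := by
        rw [hdec]
        ring
      rw [this]
      exact Ideal.sub_mem _ h1J h2J
    have h4 : (1 : ↥(chartClosure ↥(A.comap ι) (ModelField K₁ N) y₁)) =
        algebraMap ↥(A.comap ι) ↥(chartClosure ↥(A.comap ι) (ModelField K₁ N) y₁) a' *
          algebraMap ↥(A.comap ι) ↥(chartClosure ↥(A.comap ι) (ModelField K₁ N) y₁)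
            (H.coeff 0) := by
      rw [← map_mul, ha', map_one]
    rw [h4]
    exact Ideal.mul_mem_left _ _ h3J

end Centre

/-! ### The components through the centre -/

section Through

variable (M p : ℕ) [NeZero M] [NeZero p] (hcop : Nat.Coprime M p)
variable {K₁ : Type} [Field K₁] [Algebra ℚ K₁] (ι : K₁ →+* Qb) (A : ValuationSubring Qb)
  [IsDiscreteValuationRing ↥(A.comap ι)]
  [Algebra ↥(A.comap ι) (ModelField K₁ (M * p))]
  [IsScalarTower ↥(A.comap ι) K₁ (ModelField K₁ (M * p))]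
  (P : Place Qb (FLb (M * p))) (hdeg : P.deg = 1)
  (y₁ : ModelField K₁ (M * p)) (hy₁ : ddBc ι (M * p) y₁ = nmY A P)

include hy₁ in
theorem ddBc_y_mem_nmComp : ddBc ι (M * p) y₁ ∈ nmComp A P hdeg := by
  rw [hy₁]
  exact nmY_mem_nmComp P hdeg

/-- **`C_∞` through the centre, UP** : if the centre of `P` lies on `C_∞`, then `vInf` passes
through the centre of `P` on every `K₁`-chart. -/
theorem ddCentre_through_oo (hI : NmIdealOo M p A P)
    (s : ↥(chartClosure ↥(A.comap ι) (ModelField K₁ (M * p)) y₁))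
    (hs : (s : ModelField K₁ (M * p)) ∈ (vInf K₁ ↥(A.comap ι) (M * p)).nonunits) :
    s ∈ ddCentre ι A (M * p) P hdeg y₁ (ddBc_y_mem_nmComp M p ι A P hdeg y₁ hy₁) := by
  rw [mem_ddCentre_iff]
  have h1 : ddBc ι (M * p) (s : ModelField K₁ (M * p)) ∈ nmChart (M * p) A (nmY A P) := by
    rw [← hy₁]
    exact ddBc_mem_nmChart ι A (M * p) y₁ _ s.2
  have h2 : ddBc ι (M * p) (s : ModelField K₁ (M * p)) ∈ gaussOBar (M * p) A :=
    (ddBc_mem_gaussOBar_iff ι A (M * p) _).2 (ValuationSubring.nonunits_subset hs)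
  exact hI _ h1 h2 (ddBc_redOo_eq_zero_of_mem ι A (M * p) _ hs h2)

/-- **`C_∞` through the centre, DOWN** : if the centre of `P` does not lie on `C_∞`, then
`vInf` does not pass through the centre of `P` on the `K₁`-chart, for every `K₁` containing a
suitable number field. -/
theorem exists_not_through_oo (hI : ¬ NmIdealOo M p A P) :
    ∃ K₀ : IntermediateField ℚ Qb, FiniteDimensional ℚ ↥K₀ ∧
      ∀ (K₁ : Type) [Field K₁] [Algebra ℚ K₁] (ι : K₁ →+* Qb)
        [IsDiscreteValuationRing ↥(A.comap ι)]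
        [Algebra ↥(A.comap ι) (ModelField K₁ (M * p))]
        [IsScalarTower ↥(A.comap ι) K₁ (ModelField K₁ (M * p))],
        (∀ c ∈ K₀, c ∈ ι.range) →
        ∀ (y₁ : ModelField K₁ (M * p)) (hy₁ : ddBc ι (M * p) y₁ = nmY A P),
          ∃ s : ↥(chartClosure ↥(A.comap ι) (ModelField K₁ (M * p)) y₁),
            (s : ModelField K₁ (M * p)) ∈ (vInf K₁ ↥(A.comap ι) (M * p)).nonunits ∧
            s ∉ ddCentre ι A (M * p) P hdeg y₁ (ddBc_y_mem_nmComp M p ι A P hdeg y₁ hy₁) := by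
  unfold NmIdealOo at hI
  push Not at hI
  obtain ⟨f, hfB, hfV, hfred, hfP⟩ := hI
  obtain ⟨K₀, hK₀, hdesc⟩ := exists_descent_nmChart A (M * p) (nmY A P) f hfB
  refine ⟨K₀, hK₀, fun K₁ _ _ ι _ _ _ hK₁ y₁ hy₁ => ?_⟩
  obtain ⟨f₁, hf₁, hf₁f⟩ := hdesc K₁ ι hK₁ y₁ hy₁
  refine ⟨⟨f₁, hf₁⟩, ?_, ?_⟩
  · have hV : ddBc ι (M * p) f₁ ∈ gaussOBar (M * p) A := by rw [hf₁f]; exact hfV
    rw [← ddBc_redOo_eq_zero_iff ι A (M * p) f₁ hV]
    have e : (⟨ddBc ι (M * p) f₁, hV⟩ : ↥(gaussOBar (M * p) A)) = ⟨f, hfV⟩ :=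
      Subtype.ext hf₁f
    rw [e]
    exact hfred
  · rw [mem_ddCentre_iff]
    show ¬ ddBc ι (M * p) f₁ ∈ nmMax A P
    rw [hf₁f]
    exact hfP

variable (W₁ : ModelField K₁ (M * p) ≃ₐ[K₁] ModelField K₁ (M * p))
  (hW₁ : ∀ f, ddBc ι (M * p) (W₁ f) = nmW M p hcop (ddBc ι (M * p) f))

include hW₁ in
/-- **`C_0` through the centre, UP.** -/
theorem ddCentre_through_zero (hI : NmIdealZero M p hcop A P)
    (s : ↥(chartClosure ↥(A.comap ι) (ModelField K₁ (M * p)) y₁))
    (hs : (s : ModelField K₁ (M * p)) ∈ (vZero K₁ ↥(A.comap ι) (M * p) W₁).nonunits) :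
    s ∈ ddCentre ι A (M * p) P hdeg y₁ (ddBc_y_mem_nmComp M p ι A P hdeg y₁ hy₁) := by
  rw [mem_ddCentre_iff]
  have h1 : ddBc ι (M * p) (s : ModelField K₁ (M * p)) ∈ nmChart (M * p) A (nmY A P) := by
    rw [← hy₁]
    exact ddBc_mem_nmChart ι A (M * p) y₁ _ s.2
  have h2 : ddBc ι (M * p) (s : ModelField K₁ (M * p)) ∈ nmV0 M p hcop A :=
    (ddBc_mem_nmV0_iff M p hcop ι A W₁ hW₁ _).2 (ValuationSubring.nonunits_subset hs)
  exact hI _ h1 h2 ((ddBc_red0_eq_zero_iff M p hcop ι A W₁ hW₁ _ h2).2 hs)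

/-- **`C_0` through the centre, DOWN.** -/
theorem exists_not_through_zero (hI : ¬ NmIdealZero M p hcop A P) :
    ∃ K₀ : IntermediateField ℚ Qb, FiniteDimensional ℚ ↥K₀ ∧
      ∀ (K₁ : Type) [Field K₁] [Algebra ℚ K₁] (ι : K₁ →+* Qb)
        [IsDiscreteValuationRing ↥(A.comap ι)]
        [Algebra ↥(A.comap ι) (ModelField K₁ (M * p))]
        [IsScalarTower ↥(A.comap ι) K₁ (ModelField K₁ (M * p))],
        (∀ c ∈ K₀, c ∈ ι.range) →
        ∀ (y₁ : ModelField K₁ (M * p)) (hy₁ : ddBc ι (M * p) y₁ = nmY A P)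
          (W₁ : ModelField K₁ (M * p) ≃ₐ[K₁] ModelField K₁ (M * p)),
          (∀ f, ddBc ι (M * p) (W₁ f) = nmW M p hcop (ddBc ι (M * p) f)) →
          ∃ s : ↥(chartClosure ↥(A.comap ι) (ModelField K₁ (M * p)) y₁),
            (s : ModelField K₁ (M * p)) ∈ (vZero K₁ ↥(A.comap ι) (M * p) W₁).nonunits ∧
            s ∉ ddCentre ι A (M * p) P hdeg y₁ (ddBc_y_mem_nmComp M p ι A P hdeg y₁ hy₁) := by
  unfold NmIdealZero at hI
  push Not at hI
  obtain ⟨f, hfB, hfV, hfred, hfP⟩ := hI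
  obtain ⟨K₀, hK₀, hdesc⟩ := exists_descent_nmChart A (M * p) (nmY A P) f hfB
  refine ⟨K₀, hK₀, fun K₁ _ _ ι _ _ _ hK₁ y₁ hy₁ W₁ hW₁ => ?_⟩
  obtain ⟨f₁, hf₁, hf₁f⟩ := hdesc K₁ ι hK₁ y₁ hy₁
  refine ⟨⟨f₁, hf₁⟩, ?_, ?_⟩
  · have hV : ddBc ι (M * p) f₁ ∈ nmV0 M p hcop A := by rw [hf₁f]; exact hfV
    rw [← ddBc_red0_eq_zero_iff M p hcop ι A W₁ hW₁ f₁ hV]
    have e : (⟨ddBc ι (M * p) f₁, hV⟩ : ↥(nmV0 M p hcop A)) = ⟨f, hfV⟩ :=
      Subtype.ext hf₁f
    rw [e]
    exact hfred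
  · rw [mem_ddCentre_iff]
    show ¬ ddBc ι (M * p) f₁ ∈ nmMax A P
    rw [hf₁f]
    exact hfP

end Through

end Fermat.Agent.H30.ORD

end
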