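import Mathlib

/-!
# P-ORD, block B1, [BC](a) : clearing denominators (helper30, Mathlib only)

`A₁` a valuation subring of `K₁`, `E` a `K₁`-algebra, `y, g ∈ E`.  If `g` is integral over
`K₁[y]`, then `a g` is integral over `A₁[y]` for some `a ≠ 0` in `A₁`.
-/

set_option autoImplicit false
set_option linter.unusedSectionVars false
set_option linter.unusedVariables false
set_option linter.style.haveILetI false

noncomputable section

namespace Fermat.Agent.H30.ORD

open Polynomial

section Denominators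

variable {K₁ : Type} [Field K₁] (A₁ : ValuationSubring K₁)

/-- a common denominator in `A₁` of finitely many elements of `K₁` -/
theorem bi_exists_common_denominator (T : Finset K₁) :
    ∃ a : K₁, a ∈ A₁ ∧ a ≠ 0 ∧ ∀ c ∈ T, a * c ∈ A₁ := by
  classical
  induction T using Finset.induction_on with
  | empty => exact ⟨1, A₁.one_mem, one_ne_zero, fun c hc => absurd hc (Finset.notMem_empty c)⟩
  | insert c T hc ih =>
    obtain ⟨a, haA, ha0, ha⟩ := ih
    have hb : ∃ b : K₁, b ∈ A₁ ∧ b ≠ 0 ∧ b * c ∈ A₁ := by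
      by_cases hcA : c ∈ A₁
      · exact ⟨1, A₁.one_mem, one_ne_zero, by rwa [one_mul]⟩
      · have hc0 : c ≠ 0 := fun h0 => hcA (h0 ▸ A₁.zero_mem)
        refine ⟨c⁻¹, (A₁.mem_or_inv_mem c).resolve_left hcA, inv_ne_zero hc0, ?_⟩
        rw [inv_mul_cancel₀ hc0]
        exact A₁.one_mem
    obtain ⟨b, hbA, hb0, hbc⟩ := hb
    refine ⟨a * b, A₁.mul_mem _ _ haA hbA, mul_ne_zero ha0 hb0, fun x hx => ?_⟩
    rcases Finset.mem_insert.1 hx with rfl | hxT
    · rw [mul_assoc]
      exact A₁.mul_mem _ _ haA hbc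
    · have : a * b * x = b * (a * x) := by ring
      rw [this]
      exact A₁.mul_mem _ _ hbA (ha x hxT)

open Classical in
/-- the finite set of constants of a polynomial of `K₁[X][T]` -/
def biCoeffs (P : K₁[X][X]) : Finset K₁ :=
  P.support.biUnion fun i => (P.coeff i).support.image fun j => (P.coeff i).coeff j

theorem mem_biCoeffs (P : K₁[X][X]) (i j : ℕ) (h : (P.coeff i).coeff j ≠ 0) :
    (P.coeff i).coeff j ∈ biCoeffs P := by
  classical
  unfold biCoeffs
  rw [Finset.mem_biUnion]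
  refine ⟨i, ?_, ?_⟩
  · rw [Polynomial.mem_support_iff]
    intro h0
    apply h
    rw [h0, Polynomial.coeff_zero]
  · rw [Finset.mem_image]
    exact ⟨j, Polynomial.mem_support_iff.2 h, rfl⟩

variable {E : Type} [CommRing E] [Algebra K₁ E]

/-- **clearing denominators** : an element integral over `K₁[y]` becomes integral over `A₁[y]`
after multiplication by a nonzero constant of `A₁`. -/
theorem bi_clear_denominators (y g : E)
    (hg : ((aeval y : K₁[X] →ₐ[K₁] E) : K₁[X] →+* E).IsIntegralElem g) :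
    ∃ a : K₁, a ∈ A₁ ∧ a ≠ 0 ∧
      (((aeval y : K₁[X] →ₐ[K₁] E) : K₁[X] →+* E).comp
        (Polynomial.mapRingHom A₁.subtype)).IsIntegralElem (algebraMap K₁ E a * g) := by
  classical
  obtain ⟨P, hPm, hP⟩ := hg
  obtain ⟨a, haA, ha0, ha⟩ := bi_exists_common_denominator A₁ (biCoeffs P)
  refine ⟨a, haA, ha0, ?_⟩
  set Q : K₁[X][X] := scaleRoots P (C a) with hQ
  have hQm : Q.Monic := (monic_scaleRoots_iff (C a)).2 hPm
  have hQ0 : eval₂ ((aeval y : K₁[X] →ₐ[K₁] E) : K₁[X] →+* E) (algebraMap K₁ E a * g) Q = 0 := by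
    have h1 := scaleRoots_eval₂_eq_zero ((aeval y : K₁[X] →ₐ[K₁] E) : K₁[X] →+* E)
      (s := (C a : K₁[X])) hP
    have h2 : ((aeval y : K₁[X] →ₐ[K₁] E) : K₁[X] →+* E) (C a) = algebraMap K₁ E a := by
      simp
    rw [h2] at h1
    exact h1
  -- the coefficients of `Q` are integral
  have hcoef : ∀ i j, (Q.coeff i).coeff j ∈ A₁ := by
    intro i j
    rw [hQ, coeff_scaleRoots]
    rcases lt_trichotomy i P.natDegree with hi | hi | hi
    · obtain ⟨m, hm⟩ : ∃ m, P.natDegree - i = m + 1 := ⟨P.natDegree - i - 1, by omega⟩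
      rw [hm, ← C_pow, Polynomial.coeff_mul_C, pow_succ]
      by_cases h0 : (P.coeff i).coeff j = 0
      · rw [h0, zero_mul]
        exact A₁.zero_mem
      · have h1 := ha _ (mem_biCoeffs P i j h0)
        have h2 : (P.coeff i).coeff j * (a ^ m * a) = a ^ m * (a * (P.coeff i).coeff j) := by
          ring
        rw [h2]
        exact A₁.mul_mem _ _ (A₁.toSubring.pow_mem haA m) h1
    · rw [hi, Nat.sub_self, pow_zero, mul_one, hPm.coeff_natDegree, Polynomial.coeff_one]
      split_ifs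
      · exact A₁.one_mem
      · exact A₁.zero_mem
    · rw [Polynomial.coeff_eq_zero_of_natDegree_lt hi, zero_mul, Polynomial.coeff_zero]
      exact A₁.zero_mem
  have h1 : ∀ i, Q.coeff i ∈ Polynomial.lifts A₁.subtype := by
    intro i
    rw [Polynomial.lifts_iff_coeff_lifts]
    intro j
    exact ⟨⟨_, hcoef i j⟩, rfl⟩
  have h2 : Q ∈ Polynomial.lifts (Polynomial.mapRingHom A₁.subtype) := by
    rw [Polynomial.lifts_iff_coeff_lifts]
    intro i
    obtain ⟨R, hR⟩ := (Polynomial.mem_lifts _).1 (h1 i)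
    exact ⟨R, hR⟩
  obtain ⟨Q', hQ', -, hQ'm⟩ := Polynomial.lifts_and_natDegree_eq_and_monic h2 hQm
  refine ⟨Q', hQ'm, ?_⟩
  rw [← Polynomial.eval₂_map, hQ']
  exact hQ0

end Denominators

end Fermat.Agent.H30.ORD

end
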