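import Fermat.Agent.H84.ORD.NodalModel
import Fermat.Agent.H9.E6.Transport
import Fermat.Agent.H61.KLCoeffDescent

/-!
# P-ORD, block B1 : the SHARED DESCENT DICTIONARY, part 1 : charts (helper30)

`F = FLb N = ℚ̄(X₀(N))`, `A` a valuation subring of `ℚ̄`; `ι : K₁ → ℚ̄` a subfield,
`A₁ = A.comap ι`, `E₁ = ModelField K₁ N`, `ddBc ι N : E₁ → F` the coefficientwise base change.

* `ddEv N A y : A[X] → F`, `X ↦ y`; `mem_nmPoly_iff`, `mem_nmChart_iff_ddEv` : the chart
  `nmChart N A y` is the set of elements integral over `A[X]` along `ddEv`;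
* `ddBc_comp_evX` : base change of polynomial expressions;
* `ddBc_mem_nmChart` : the base change of `chartClosure A₁ E₁ y₁` lies in `nmChart N A (bc y₁)`;
* `ddBc_mem_nmChart_iff` : conversely an element of `E₁` whose base change lies in the chart
  need NOT be integral over `A₁[y₁]` for the same `K₁` in general - we prove the descent
  statement:
* `exists_descent_nmChart` : every `f ∈ nmChart N A y` comes from `chartClosure A₁ E₁ y₁` for
  every `K₁` containing a suitable number field `K₀` (`y₁` any element with `bc y₁ = y`).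
-/

set_option autoImplicit false
set_option linter.unusedSectionVars false
set_option linter.unusedVariables false
set_option linter.style.haveILetI false

noncomputable section

namespace Fermat.Agent.H30.ORD

open Polynomial ModularCurve AlgebraicCurve
open Fermat.Agent.H22.KL Fermat.Agent.H9.E6 Fermat.Agent.H84.ORD Fermat.Agent.H72.FF
open Fermat.Agent.H87.KL (evX IntX)
open Fermat.Agent.H93.KL (klBc)

section Poly

variable (N : ℕ) (A : ValuationSubring Qb)

/-- evaluation `A[X] → F`, `X ↦ y` -/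
def ddEv (y : FLb N) : (↥A)[X] →+* FLb N :=
  Polynomial.eval₂RingHom ((algebraMap Qb (FLb N)).comp A.subtype) y

theorem ddEv_C (y : FLb N) (a : ↥A) : ddEv N A y (C a) = algebraMap Qb (FLb N) (a : Qb) := by
  unfold ddEv
  rw [Polynomial.coe_eval₂RingHom, Polynomial.eval₂_C]
  rfl

theorem ddEv_X (y : FLb N) : ddEv N A y X = y := by
  unfold ddEv
  rw [Polynomial.coe_eval₂RingHom, Polynomial.eval₂_X]

theorem ddEv_mem_nmPoly (y : FLb N) (Q : (↥A)[X]) : ddEv N A y Q ∈ nmPoly N A y := by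
  induction Q using Polynomial.induction_on' with
  | add p q hp hq =>
    rw [map_add]
    exact add_mem hp hq
  | monomial n a =>
    rw [← C_mul_X_pow_eq_monomial, map_mul, map_pow, ddEv_C, ddEv_X]
    have h1 : algebraMap Qb (FLb N) (a : Qb) ∈ nmPoly N A y :=
      Subring.subset_closure (Set.mem_union_left _ ⟨(a : Qb), a.2, rfl⟩)
    have h2 : y ∈ nmPoly N A y :=
      Subring.subset_closure (Set.mem_union_right _ (Set.mem_singleton y))
    exact mul_mem h1 (pow_mem h2 n)

theorem mem_nmPoly_iff (y g : FLb N) :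
    g ∈ nmPoly N A y ↔ ∃ Q : (↥A)[X], ddEv N A y Q = g := by
  constructor
  · intro hg
    have hle : nmPoly N A y ≤ (ddEv N A y).range := by
      apply Subring.closure_le.2
      rintro z (⟨c, hc, rfl⟩ | hz)
      · exact ⟨C ⟨c, hc⟩, ddEv_C N A y _⟩
      · rw [Set.mem_singleton_iff] at hz
        rw [hz]
        exact ⟨X, ddEv_X N A y⟩
    exact hle hg
  · rintro ⟨Q, rfl⟩
    exact ddEv_mem_nmPoly N A y Q

/-- **the chart is the integral closure of `A[X]` along `X ↦ y`** -/
theorem mem_nmChart_iff_ddEv (y f : FLb N) :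
    f ∈ nmChart N A y ↔ (ddEv N A y).IsIntegralElem f := by
  rw [mem_nmChart_iff]
  let g : (↥A)[X] →+* ↥(nmPoly N A y) :=
    (ddEv N A y).codRestrict (nmPoly N A y) (ddEv_mem_nmPoly N A y)
  have hg : Function.Surjective g := by
    rintro ⟨s, hs⟩
    obtain ⟨Q, rfl⟩ := (mem_nmPoly_iff N A y s).1 hs
    exact ⟨Q, rfl⟩
  have hcomp : (nmPoly N A y).subtype.comp g = ddEv N A y := by
    ext <;> rfl
  constructor
  · rintro ⟨p, hp, hpy⟩
    obtain ⟨q, hq, -, hqm⟩ := Polynomial.lifts_and_natDegree_eq_and_monic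
      (p := p) ((Polynomial.mem_lifts p).2 (Polynomial.map_surjective g hg p)) hp
    refine ⟨q, hqm, ?_⟩
    rw [← hcomp, ← Polynomial.eval₂_map, hq]
    exact hpy
  · rintro ⟨q, hq, hqy⟩
    refine ⟨q.map g, hq.map g, ?_⟩
    rw [Polynomial.eval₂_map, hcomp]
    exact hqy

/-- the constants of `A` lie in every chart -/
theorem algebraMap_mem_nmChart (y : FLb N) {c : Qb} (hc : c ∈ A) :
    algebraMap Qb (FLb N) c ∈ nmChart N A y := by
  rw [mem_nmChart_iff_ddEv, ← ddEv_C N A y ⟨c, hc⟩]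
  exact (ddEv N A y).isIntegralElem_map

/-- the coordinate lies in its chart -/
theorem self_mem_nmChart (y : FLb N) : y ∈ nmChart N A y := by
  rw [mem_nmChart_iff_ddEv]
  have h := (ddEv N A y).isIntegralElem_map (x := (X : (↥A)[X]))
  rwa [ddEv_X] at h

end Poly

section BC

variable {K₁ : Type} [Field K₁] [Algebra ℚ K₁] (ι : K₁ →+* Qb) (A : ValuationSubring Qb)
  (N : ℕ)

/-- the coefficientwise base change `E₁ = ModelField K₁ N → F = FLb N` -/
def ddBc : ModelField K₁ N →+* FLb N := klBc ι (modularFunctionFieldFull N)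

theorem ddBc_coe (f : ModelField K₁ N) :
    ((ddBc ι N f : FLb N) : LaurentSeries Qb) = coeffMap ι (f : LaurentSeries K₁) := rfl

theorem ddBc_injective : Function.Injective (ddBc (K₁ := K₁) ι N) :=
  (ddBc ι N).injective

theorem ddBc_algebraMap (c : K₁) :
    ddBc ι N (algebraMap K₁ (ModelField K₁ N) c) = algebraMap Qb (FLb N) (ι c) := by
  apply Subtype.ext
  rw [ddBc_coe]
  show coeffMap ι (algebraMap K₁ (LaurentSeries K₁) c) = algebraMap Qb (LaurentSeries Qb) (ι c)
  rw [algebraMap_laurentSeries_eq_single, algebraMap_laurentSeries_eq_single, coeffMap_single]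

/-- base change of an element given by a rational `q`-expansion -/
theorem ddBc_eq_of_coeffEmb (y₁ : ModelField K₁ N) (y : FLb N) (y₀ : LaurentSeries ℚ)
    (h₁ : (y₁ : LaurentSeries K₁) = coeffEmb K₁ y₀)
    (h : (y : LaurentSeries Qb) = coeffEmb Qb y₀) : ddBc ι N y₁ = y := by
  apply Subtype.ext
  rw [ddBc_coe, h₁, h, coeffEmb, coeffEmb, coeffMap_coeffMap]
  exact coeffMap_congr (RingHom.ext fun c => by simp) y₀

variable [Algebra ↥(A.comap ι) (ModelField K₁ N)]
  [IsScalarTower ↥(A.comap ι) K₁ (ModelField K₁ N)]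

theorem ddBc_algebraMap_comap (a : ↥(A.comap ι)) :
    ddBc ι N (algebraMap ↥(A.comap ι) (ModelField K₁ N) a) =
      algebraMap Qb (FLb N) (ι (a : K₁)) := by
  rw [IsScalarTower.algebraMap_apply ↥(A.comap ι) K₁ (ModelField K₁ N), ddBc_algebraMap]
  rfl

/-- base change of polynomial expressions -/
theorem ddBc_comp_evX (y₁ : ModelField K₁ N) :
    (ddBc ι N).comp (evX (A := ↥(A.comap ι)) y₁) =
      (ddEv N A (ddBc ι N y₁)).comp (Polynomial.mapRingHom (comapHom ι A)) := by
  refine Polynomial.ringHom_ext (fun a => ?_) ?_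
  · simp only [RingHom.comp_apply, Polynomial.coe_mapRingHom, Polynomial.map_C]
    rw [Fermat.Agent.H87.KL.evX_apply, aeval_C, ddEv_C, ddBc_algebraMap_comap]
    rfl
  · simp only [RingHom.comp_apply, Polynomial.coe_mapRingHom, Polynomial.map_X]
    rw [Fermat.Agent.H87.KL.evX_apply, aeval_X, ddEv_X]

/-- **the base change of the `K₁`-chart lies in the `ℚ̄`-chart** -/
theorem ddBc_mem_nmChart (y₁ f₁ : ModelField K₁ N)
    (hf : f₁ ∈ chartClosure ↥(A.comap ι) (ModelField K₁ N) y₁) :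
    ddBc ι N f₁ ∈ nmChart N A (ddBc ι N y₁) := by
  rw [mem_nmChart_iff_ddEv]
  have h1 := (Fermat.Agent.H87.KL.mem_chartClosure_iff (A := ↥(A.comap ι)) y₁ f₁).1 hf
  exact isIntegralElem_map_of_comm _ _ (Polynomial.mapRingHom (comapHom ι A)) (ddBc ι N)
    (ddBc_comp_evX ι A N y₁) h1

end BC

section Descent

variable (A : ValuationSubring Qb) (N : ℕ)

/-- the finite set of constants occurring in a polynomial of `A[X][T]` -/
def ddCoeffs (P : (↥A)[X][X]) : Finset Qb :=
  P.support.biUnion fun i => (P.coeff i).support.image fun j => (((P.coeff i).coeff j : ↥A) : Qb)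

theorem mem_ddCoeffs (P : (↥A)[X][X]) (i j : ℕ) (h : (P.coeff i).coeff j ≠ 0) :
    (((P.coeff i).coeff j : ↥A) : Qb) ∈ ddCoeffs A P := by
  unfold ddCoeffs
  rw [Finset.mem_biUnion]
  refine ⟨i, ?_, ?_⟩
  · rw [Polynomial.mem_support_iff]
    intro h0
    apply h
    rw [h0, Polynomial.coeff_zero]
  · rw [Finset.mem_image]
    exact ⟨j, Polynomial.mem_support_iff.2 h, rfl⟩

/-- a polynomial of `A[X][T]` whose constants lie in `ι K₁` comes from `A₁[X][T]` -/
theorem exists_lift_of_coeffs {K₁ : Type} [Field K₁] (ι : K₁ →+* Qb) (P : (↥A)[X][X])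
    (hPm : P.Monic) (h : ∀ c ∈ ddCoeffs A P, c ∈ ι.range) :
    ∃ P' : (↥(A.comap ι))[X][X], P'.Monic ∧
      P'.map (Polynomial.mapRingHom (comapHom ι A)) = P := by
  have h1 : ∀ i, P.coeff i ∈ Polynomial.lifts (comapHom ι A) := by
    intro i
    rw [Polynomial.lifts_iff_coeff_lifts]
    intro j
    by_cases h0 : (P.coeff i).coeff j = 0
    · exact ⟨0, by rw [map_zero, h0]⟩
    · obtain ⟨c, hc⟩ := h _ (mem_ddCoeffs A P i j h0)
      have hcA : c ∈ A.comap ι := by
        show ι c ∈ A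
        rw [hc]
        exact ((P.coeff i).coeff j).2
      exact ⟨⟨c, hcA⟩, Subtype.ext hc⟩
  have h2 : P ∈ Polynomial.lifts (Polynomial.mapRingHom (comapHom ι A)) := by
    rw [Polynomial.lifts_iff_coeff_lifts]
    intro i
    obtain ⟨Q, hQ⟩ := (Polynomial.mem_lifts _).1 (h1 i)
    exact ⟨Q, hQ⟩
  obtain ⟨P', hP', -, hP'm⟩ := Polynomial.lifts_and_natDegree_eq_and_monic h2 hPm
  exact ⟨P', hP'm, hP'⟩

/-- **DESCENT OF THE CHART.**  Every `f ∈ nmChart N A y` comes from the `K₁`-chart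
`chartClosure (A ∩ K₁) (ModelField K₁ N) y₁` for every `K₁` containing a suitable number field
(`y₁` any element with base change `y`). -/
theorem exists_descent_nmChart (y f : FLb N) (hf : f ∈ nmChart N A y) :
    ∃ K₀ : IntermediateField ℚ Qb, FiniteDimensional ℚ ↥K₀ ∧
      ∀ (K₁ : Type) [Field K₁] [Algebra ℚ K₁] (ι : K₁ →+* Qb)
        [Algebra ↥(A.comap ι) (ModelField K₁ N)]
        [IsScalarTower ↥(A.comap ι) K₁ (ModelField K₁ N)],
        (∀ c ∈ K₀, c ∈ ι.range) →
        ∀ y₁ : ModelField K₁ N, ddBc ι N y₁ = y →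
          ∃ f₁ : ModelField K₁ N,
            f₁ ∈ chartClosure ↥(A.comap ι) (ModelField K₁ N) y₁ ∧ ddBc ι N f₁ = f := by
  classical
  obtain ⟨P, hPm, hP⟩ := (mem_nmChart_iff_ddEv N A y f).1 hf
  obtain ⟨Kf, hKf, hF⟩ :=
    Fermat.Agent.H61.coeffDescent (modularFunctionFieldFull N) (f : LaurentSeries Qb) f.2
  have hKS : FiniteDimensional ℚ
      ↥(IntermediateField.adjoin ℚ ((ddCoeffs A P : Finset Qb) : Set Qb)) :=
    IntermediateField.finiteDimensional_adjoin
      (fun x _ => ((AlgebraicClosure.isAlgebraic ℚ).isAlgebraic x).isIntegral)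
  refine ⟨IntermediateField.adjoin ℚ ((ddCoeffs A P : Finset Qb) : Set Qb) ⊔ Kf, ?_,
    fun K₁ _ _ ι _ _ hK₁ y₁ hy₁ => ?_⟩
  · have := hKS
    have := hKf
    exact IntermediateField.finiteDimensional_sup _ _
  · obtain ⟨f₁, hf₁, hf₁f⟩ := hF K₁ ι (fun c hc => hK₁ c ((le_sup_right :
      Kf ≤ IntermediateField.adjoin ℚ ((ddCoeffs A P : Finset Qb) : Set Qb) ⊔ Kf) hc))
    obtain ⟨P', hP'm, hP'⟩ := exists_lift_of_coeffs A ι P hPm (fun c hc => hK₁ c
      ((le_sup_left : IntermediateField.adjoin ℚ ((ddCoeffs A P : Finset Qb) : Set Qb) ≤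
        IntermediateField.adjoin ℚ ((ddCoeffs A P : Finset Qb) : Set Qb) ⊔ Kf)
        (IntermediateField.subset_adjoin ℚ _ hc)))
    have hbc : ddBc ι N ⟨f₁, hf₁⟩ = f := Subtype.ext hf₁f
    refine ⟨⟨f₁, hf₁⟩, ?_, hbc⟩
    rw [Fermat.Agent.H87.KL.mem_chartClosure_iff]
    refine ⟨P', hP'm, ?_⟩
    apply ddBc_injective ι N
    rw [map_zero, Polynomial.hom_eval₂, ddBc_comp_evX ι A N y₁, hy₁, hbc,
      ← Polynomial.eval₂_map, hP']
    exact hP

end Descent

end Fermat.Agent.H30.ORD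

end
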