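import Fermat.Agent.H30.ORD.ChartOverlapAbs
import Fermat.Agent.H30.ORD.DescChart
import Fermat.Agent.H84.ORD.NodalSpecB

/-!
# P-ORD, block B1, [CRT] chart `1/j` : the overlap of the charts at the `ℚ̄`-level (helper30)

* `nmChart_inv_pow` : `b ∈ B̄(y) ⟹ y⁻ᵐ b ∈ B̄(y⁻¹)` for all large `m` (`y = j` or `y = 1/j`);
* `nmY_eq_or` : the chart of a place is `j` or `1/j`;
* `nmJ_inv_mem_nmMax` : if the chart of `P` is `1/j` (and `≠ j`), then `1/j ∈ 𝔐_P` : every centre
  of the chart `1/j` contains `1/j` (the points of the chart `1/j` where `1/j` is a unit are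
  centres of the chart `j`);
* `nmY_eq_nmJ_of_unit` : if `1/j ∈ V_P ∖ 𝔐_P`, then the chart of `P` is `j`;
* `nmMax_inv_pow_mul_iff` : if `y ∈ V_P ∖ 𝔐_P` then `yᵐ b ∈ 𝔐_P ↔ b ∈ 𝔐_P`.
-/

set_option autoImplicit false
set_option linter.unusedSectionVars false
set_option linter.unusedVariables false
set_option linter.style.haveILetI false

noncomputable section

namespace Fermat.Agent.H30.ORD

open Polynomial ModularCurve AlgebraicCurve
open Fermat.Agent.H84.ORD Fermat.Agent.H72.FF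

section Overlap

variable (N : ℕ) (A : ValuationSubring Qb)

/-- **the overlap of the charts** : `b ∈ B̄(y) ⟹ y⁻ᵐ b ∈ B̄(y⁻¹)` for all large `m`. -/
theorem nmChart_inv_pow (y b : FLb N) (hy : y ≠ 0) (hb : b ∈ nmChart N A y) :
    ∃ k : ℕ, ∀ m : ℕ, k ≤ m → (y⁻¹) ^ m * b ∈ nmChart N A y⁻¹ := by
  rw [mem_nmChart_iff_ddEv] at hb
  obtain ⟨k, hk⟩ := co_overlap ((algebraMap Qb (FLb N)).comp A.subtype) y b hy hb
  refine ⟨k, fun m hm => ?_⟩
  rw [mem_nmChart_iff_ddEv]
  exact hk m hm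

/-- the same with a common exponent for finitely many elements -/
theorem nmChart_inv_pow_finset {ι : Type} (s : Finset ι) (y : FLb N) (b : ι → FLb N)
    (hy : y ≠ 0) (hb : ∀ i ∈ s, b i ∈ nmChart N A y) :
    ∃ k : ℕ, ∀ m : ℕ, k ≤ m → ∀ i ∈ s, (y⁻¹) ^ m * b i ∈ nmChart N A y⁻¹ := by
  classical
  induction s using Finset.induction_on with
  | empty => exact ⟨0, fun m _ i hi => absurd hi (Finset.notMem_empty i)⟩
  | insert a s ha ih =>
    obtain ⟨k₁, hk₁⟩ := ih fun i hi => hb i (Finset.mem_insert_of_mem hi)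
    obtain ⟨k₂, hk₂⟩ := nmChart_inv_pow N A y (b a) hy (hb a (Finset.mem_insert_self a s))
    refine ⟨max k₁ k₂, fun m hm i hi => ?_⟩
    rcases Finset.mem_insert.1 hi with rfl | hi'
    · exact hk₂ m (le_trans (le_max_right _ _) hm)
    · exact hk₁ m (le_trans (le_max_left _ _) hm) i hi'

end Overlap

section Places

variable {N : ℕ} [NeZero N] (A : ValuationSubring Qb) (P : Place Qb (FLb N))

/-- the chart of a place is `j` or `1/j` -/
theorem nmY_eq_or : nmY A P = nmJ N ∨ nmY A P = (nmJ N)⁻¹ := by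
  classical
  unfold nmY
  split_ifs
  · exact Or.inl rfl
  · exact Or.inr rfl

theorem nmY_eq_nmJ_iff : nmY A P = nmJ N ↔ nmJ N ∈ nmInt A P ∨ (nmJ N)⁻¹ = nmJ N := by
  classical
  unfold nmY
  split_ifs with h
  · exact ⟨fun _ => Or.inl h, fun _ => rfl⟩
  · exact ⟨fun h' => Or.inr h', fun h' => h'.resolve_left h⟩

/-- if `j(P) ∈ A` the chart of `P` is `j` -/
theorem nmY_eq_nmJ_of_mem (h : nmJ N ∈ nmInt A P) : nmY A P = nmJ N := by
  classical
  unfold nmY
  rw [if_pos h]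

/-- if `j(P) ∉ A` the chart of `P` is `1/j` -/
theorem nmY_eq_inv_of_not_mem (h : nmJ N ∉ nmInt A P) : nmY A P = (nmJ N)⁻¹ := by
  classical
  unfold nmY
  rw [if_neg h]

variable (hdeg : P.deg = 1)

include hdeg in
/-- if `j(P) ∉ A`, then `(1/j)(P) ∈ 𝔪_A` : **every centre of the chart `1/j` whose place is not
in the chart `j` contains `1/j`** -/
theorem nmJ_inv_mem_nmMax (h : nmJ N ∉ nmInt A P) : (nmJ N)⁻¹ ∈ nmMax A P := by
  rw [← mem_nonunits_nmComp_iff A P hdeg, ValuationSubring.mem_nonunits_iff_or]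
  by_cases h0 : (nmJ N)⁻¹ = 0
  · exact Or.inl h0
  · refine Or.inr ?_
    rw [inv_inv]
    exact h

include hdeg in
/-- if `1/j` is a unit at `P` (`1/j ∈ V_P ∖ 𝔐_P`), then the chart of `P` is `j` -/
theorem nmY_eq_nmJ_of_unit (h1 : (nmJ N)⁻¹ ∈ nmInt A P) (h2 : (nmJ N)⁻¹ ∉ nmMax A P) :
    nmY A P = nmJ N := by
  apply nmY_eq_nmJ_of_mem
  by_contra h
  exact h2 (nmJ_inv_mem_nmMax A P hdeg h)

include hdeg in
/-- multiplication by a unit of `V_P` does not change membership in `𝔐_P` -/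
theorem nmMax_mul_iff_of_unit {u b : FLb N} (hu : u ∈ nmInt A P) (hu' : u ∉ nmMax A P) :
    u * b ∈ nmMax A P ↔ b ∈ nmMax A P := by
  rw [← mem_nonunits_nmComp_iff A P hdeg, ← mem_nonunits_nmComp_iff A P hdeg] at *
  have huV : u ∈ nmComp A P hdeg := hu
  have hu0 : u ≠ 0 := by
    intro h0
    apply hu'
    rw [h0, ValuationSubring.mem_nonunits_iff]
    simp
  have hval : (nmComp A P hdeg).valuation u = 1 := by
    have h1 : (nmComp A P hdeg).valuation u ≤ 1 :=
      ((nmComp A P hdeg).valuation_le_one_iff u).2 huV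
    have h2 : ¬ (nmComp A P hdeg).valuation u < 1 := by
      rw [← ValuationSubring.mem_nonunits_iff]
      exact hu'
    exact le_antisymm h1 (not_lt.1 h2)
  rw [ValuationSubring.mem_nonunits_iff, ValuationSubring.mem_nonunits_iff, map_mul, hval,
    one_mul]

include hdeg in
theorem nmMax_pow_mul_iff_of_unit {u b : FLb N} (hu : u ∈ nmInt A P) (hu' : u ∉ nmMax A P)
    (m : ℕ) : u ^ m * b ∈ nmMax A P ↔ b ∈ nmMax A P := by
  induction m with
  | zero => rw [pow_zero, one_mul]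
  | succ m ih =>
    rw [pow_succ, mul_assoc, ← ih]
    have e : u ^ m * (u * b) = u * (u ^ m * b) := by ring
    rw [e]
    rw [nmMax_mul_iff_of_unit A P hdeg hu hu']

end Places

end Fermat.Agent.H30.ORD

end
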