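import Mathlib

/-!
# P-ORD, block B1, [CRT] chart `1/j` : the overlap of the two charts (helper30, Mathlib only)

`φ : R → S` a ring homomorphism into a field, `y ≠ 0` in `S`.  If `b` is integral over `R[y]`,
then `y⁻ᵐ b` is integral over `R[y⁻¹]` for all large `m`.
-/

set_option autoImplicit false
set_option linter.unusedSectionVars false
set_option linter.unusedVariables false
set_option linter.style.haveILetI false

noncomputable section

namespace Fermat.Agent.H30.ORD

open Polynomial

section Overlap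

variable {R S : Type} [CommRing R] [Field S] (φ : R →+* S)

/-- evaluation of a reflected polynomial at the inverse -/
theorem co_eval₂_reflect (y : S) (hy : y ≠ 0) (M : ℕ) (c : R[X]) (hc : c.natDegree ≤ M) :
    eval₂ φ y⁻¹ (reflect M c) = eval₂ φ y c * (y⁻¹) ^ M := by
  letI := invertibleOfNonzero hy
  have h := eval₂_reflect_mul_pow φ y M c hc
  rw [invOf_eq_inv] at h
  rw [← h, mul_assoc, ← mul_pow, mul_inv_cancel₀ hy, one_pow, mul_one]

/-- **the overlap of the charts `y` and `y⁻¹`** -/
theorem co_overlap (y b : S) (hy : y ≠ 0)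
    (hb : (eval₂RingHom φ y).IsIntegralElem b) :
    ∃ k : ℕ, ∀ m : ℕ, k ≤ m → (eval₂RingHom φ y⁻¹).IsIntegralElem ((y⁻¹) ^ m * b) := by
  classical
  obtain ⟨P, hPm, hP⟩ := hb
  set n := P.natDegree with hn
  set d := (Finset.range (n + 1)).sup (fun i => (P.coeff i).natDegree) with hd
  refine ⟨d, fun m hm => ?_⟩
  have hdeg : ∀ i, i < n → (P.coeff i).natDegree ≤ m * (n - i) := by
    intro i hi
    have h1 : (P.coeff i).natDegree ≤ d :=
      Finset.le_sup (f := fun i => (P.coeff i).natDegree)
        (Finset.mem_range.2 (Nat.lt_succ_of_lt hi))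
    have h2 : 1 ≤ n - i := by omega
    calc (P.coeff i).natDegree ≤ d := h1
      _ ≤ m := hm
      _ = m * 1 := (mul_one m).symm
      _ ≤ m * (n - i) := Nat.mul_le_mul_left m h2
  set p : R[X][X] := ∑ i ∈ Finset.range n, C (reflect (m * (n - i)) (P.coeff i)) * X ^ i with hp
  have hpdeg : p.degree < (n : WithBot ℕ) := by
    rw [Polynomial.degree_lt_iff_coeff_zero]
    intro k hk
    rw [hp, Polynomial.finsetSum_coeff]
    refine Finset.sum_eq_zero fun i hi => ?_
    rw [Polynomial.coeff_C_mul_X_pow, if_neg]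
    have := Finset.mem_range.1 hi
    omega
  refine ⟨X ^ n + p, monic_X_pow_add hpdeg, ?_⟩
  rw [eval₂_add, eval₂_pow, eval₂_X, hp, eval₂_finsetSum]
  have hterm : ∀ i ∈ Finset.range n,
      eval₂ (eval₂RingHom φ y⁻¹) ((y⁻¹) ^ m * b)
        (C (reflect (m * (n - i)) (P.coeff i)) * X ^ i) =
      (y⁻¹) ^ (m * n) * (eval₂RingHom φ y (P.coeff i) * b ^ i) := by
    intro i hi
    have hi' : i < n := Finset.mem_range.1 hi
    rw [eval₂_mul, eval₂_C, eval₂_pow, eval₂_X, coe_eval₂RingHom, coe_eval₂RingHom,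
      co_eval₂_reflect φ y hy _ _ (hdeg i hi'), mul_pow, ← pow_mul]
    have e : m * n = m * (n - i) + m * i := by
      rw [← Nat.mul_add, Nat.sub_add_cancel hi'.le]
    rw [e, pow_add]
    ring
  rw [Finset.sum_congr rfl hterm, ← Finset.mul_sum, mul_pow, ← pow_mul]
  have hP' : b ^ n + ∑ i ∈ Finset.range n, eval₂RingHom φ y (P.coeff i) * b ^ i = 0 := by
    rw [eval₂_eq_sum_range, Finset.sum_range_succ, ← hn, hPm.coeff_natDegree, map_one,
      one_mul] at hP
    rw [add_comm]
    exact hP
  rw [← mul_add, hP', mul_zero]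

end Overlap

end Fermat.Agent.H30.ORD

end
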