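import Fermat.Agent.H30.ORD.DescChart
import Fermat.Agent.H66.ORD.RangeMul
import Fermat.Agent.H62.SS.AtkinLehnerModel
import Fermat.Agent.H7.SS2.Vertical

/-!
# P-ORD, block B1 : the SHARED DESCENT DICTIONARY, part 2 : Gauss rings and `W` (helper30)

`ι : K₁ → ℚ̄`, `A₁ = A.comap ι` a discrete valuation ring, `bc = ddBc ι N : E₁ → F`.

* `ddBc_mem_gaussOBar_iff` : `bc f₁ ∈ V_∞ = gaussOBar N A ↔ f₁ ∈ vInf K₁ A₁ N`;
* `ddBc_redOo_eq_zero_iff` : `red_∞ (bc f₁) = 0 ↔ f₁ ∈ (vInf K₁ A₁ N).nonunits`;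
* `exists_modelW` : the Atkin-Lehner automorphism `nmW M p hcop` of `F` restricts to an
  automorphism `W₁` of `E₁` with `IsAtkinLehnerModel K₁ M p W₁`, `bc (W₁ f) = nmW (bc f)`;
* `ddBc_mem_nmV0_iff` : `bc f₁ ∈ V_0 = nmV0 ↔ f₁ ∈ vZero K₁ A₁ (M p) W₁`;
* `ddBc_red0_eq_zero_iff` : `red_0 (bc f₁) = 0 ↔ f₁ ∈ (vZero K₁ A₁ (M p) W₁).nonunits`.
-/

set_option autoImplicit false
set_option linter.unusedSectionVars false
set_option linter.unusedVariables false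
set_option linter.style.haveILetI false
set_option synthInstance.maxHeartbeats 400000
set_option maxHeartbeats 1000000

noncomputable section

namespace Fermat.Agent.H30.ORD

open Polynomial ModularCurve AlgebraicCurve
open Fermat.Agent.H22.KL Fermat.Agent.H9.E6 Fermat.Agent.H84.ORD Fermat.Agent.H72.FF
open Fermat.Agent.H7.SS Fermat.Agent.H7.SS2 Fermat.Agent.H66 Fermat.Agent.H66.ORD
open Fermat.Agent.H93.KL (klBc)

section Gauss

variable {K₁ : Type} [Field K₁] [Algebra ℚ K₁] (ι : K₁ →+* Qb) (A : ValuationSubring Qb)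
  [IsDiscreteValuationRing ↥(A.comap ι)] (N : ℕ)

/-- **`V_∞` descends** : `bc f₁ ∈ gaussOBar N A ↔ f₁ ∈ vInf K₁ (A ∩ K₁) N`. -/
theorem ddBc_mem_gaussOBar_iff (f₁ : ModelField K₁ N) :
    ddBc ι N f₁ ∈ gaussOBar N A ↔ f₁ ∈ vInf K₁ ↥(A.comap ι) N := by
  rw [mem_vInf_iff, mem_gaussOBar_iff]
  constructor
  · intro h
    exact ord_inV_of_bc ι A _ (hasGNF_model K₁ ↥(A.comap ι) N) f₁.2 h
  · intro h
    exact ord_bc_inV ι A _ h

/-- the reduction of the base change of an element of the maximal ideal of `vInf` vanishes -/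
theorem ddBc_redOo_eq_zero_of_mem (f₁ : ModelField K₁ N)
    (hf : f₁ ∈ (vInf K₁ ↥(A.comap ι) N).nonunits) (h : ddBc ι N f₁ ∈ gaussOBar N A) :
    nmRedOo N A ⟨ddBc ι N f₁, h⟩ = 0 := by
  rw [nmRedOo_eq_zero_iff, gaussRedBar_apply]
  obtain ⟨hz, hred⟩ := ord_bc_inM ι A _ ((mem_nonunits_vInf_iff f₁).1 hf)
  exact hred

/-- **`𝔪(V_∞)` descends** : `red_∞ (bc f₁) = 0 ↔ f₁ ∈ (vInf K₁ (A ∩ K₁) N).nonunits`. -/
theorem ddBc_redOo_eq_zero_iff (f₁ : ModelField K₁ N) (h : ddBc ι N f₁ ∈ gaussOBar N A) :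
    nmRedOo N A ⟨ddBc ι N f₁, h⟩ = 0 ↔ f₁ ∈ (vInf K₁ ↥(A.comap ι) N).nonunits := by
  constructor
  · intro h0
    have hV : f₁ ∈ vInf K₁ ↥(A.comap ι) N := (ddBc_mem_gaussOBar_iff ι A N f₁).1 h
    rw [ValuationSubring.mem_nonunits_iff_or]
    by_cases hf0 : f₁ = 0
    · exact Or.inl hf0
    · refine Or.inr fun hinv => ?_
      have hinv' : ddBc ι N f₁⁻¹ ∈ gaussOBar N A := (ddBc_mem_gaussOBar_iff ι A N f₁⁻¹).2 hinv
      have hmul : (⟨ddBc ι N f₁, h⟩ : ↥(gaussOBar N A)) * ⟨ddBc ι N f₁⁻¹, hinv'⟩ = 1 := by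
        apply Subtype.ext
        show ddBc ι N f₁ * ddBc ι N f₁⁻¹ = 1
        rw [← map_mul, mul_inv_cancel₀ hf0, map_one]
      have := congrArg (nmRedOo N A) hmul
      rw [map_mul, h0, zero_mul, map_one] at this
      exact zero_ne_one this
  · intro hf
    exact ddBc_redOo_eq_zero_of_mem ι A N f₁ hf h

end Gauss

section AL

variable (M p : ℕ) [NeZero M] [NeZero p] (hcop : Nat.Coprime M p)
variable {K₁ : Type} [Field K₁] [Algebra ℚ K₁] (ι : K₁ →+* Qb)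

/-- **`W` descends** : the Atkin-Lehner automorphism `nmW` of `F` restricts to the model field
over every `K₁`, and the restriction is an Atkin-Lehner automorphism of the model. -/
theorem exists_modelW :
    ∃ W₁ : ModelField K₁ (M * p) ≃ₐ[K₁] ModelField K₁ (M * p),
      Fermat.Agent.H82.SS.IsAtkinLehnerModel K₁ M p W₁ ∧
      (∀ f, ddBc ι (M * p) (W₁ f) = nmW M p hcop (ddBc ι (M * p) f)) ∧
      (∀ f, W₁ (W₁ f) = f) := by
  obtain ⟨hgens, hα, hβ, hinv⟩ := nmW_spec M p hcop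
  have hrat : ∀ w : ↥(modularFunctionFieldFull (M * p)),
      ∃ w' : ↥(modularFunctionFieldFull (M * p)),
        nmW M p hcop (Fermat.Agent.H62.SS.ratBar (modularFunctionFieldFull (M * p)) w)
          = Fermat.Agent.H62.SS.ratBar (modularFunctionFieldFull (M * p)) w' := by
    refine Fermat.Agent.H62.SS.rat_stable (modularFunctionFieldFull (M * p))
      (divisorExpansions (M * p)) rfl (nmW M p hcop) ?_
    rintro x ⟨d, hd0, hd, rfl⟩ hxF
    obtain ⟨d'', hd0'', hd'', h1, -⟩ := hgens d hd0 hd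
    refine ⟨⟨qExpand ℚ d'' jq, jqd_mem_full (M * p) hd''⟩, ?_⟩
    exact h1
  obtain ⟨W₁, hW₁⟩ := Fermat.Agent.H62.SS.exists_descent ι (modularFunctionFieldFull (M * p))
    (nmW M p hcop) hinv hrat
  have hbinj : Function.Injective (klBc ι (modularFunctionFieldFull (M * p))) :=
    (klBc ι (modularFunctionFieldFull (M * p))).injective
  have hbα : ∀ f : ModelField K₁ M,
      klBc ι (modularFunctionFieldFull (M * p)) (heckeAlphaBar K₁ M p f)
        = heckeAlphaBar Qb M p (klBc ι (modularFunctionFieldFull M) f) := by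
    intro f
    apply Subtype.ext
    rw [Fermat.Agent.H93.KL.klBc_coe, coe_heckeAlphaBar, coe_heckeAlphaBar,
      Fermat.Agent.H93.KL.klBc_coe]
  have hbβ : ∀ f : ModelField K₁ M,
      klBc ι (modularFunctionFieldFull (M * p)) (heckeBetaBar K₁ M p f)
        = heckeBetaBar Qb M p (klBc ι (modularFunctionFieldFull M) f) := by
    intro f
    apply Subtype.ext
    rw [Fermat.Agent.H93.KL.klBc_coe, coe_heckeBetaBar, coe_heckeBetaBar,
      Fermat.Agent.H93.KL.klBc_coe]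
    exact coeffMap_qExpand ι p _
  refine ⟨W₁, ⟨fun f => ?_, fun f => ?_⟩, fun f => hW₁ f, fun f => ?_⟩
  · apply hbinj
    rw [hW₁, hbα, hα, hbβ]
  · apply hbinj
    rw [hW₁, hbβ, hβ, hbα]
  · apply hbinj
    rw [hW₁, hW₁, hinv]

variable (A : ValuationSubring Qb) [IsDiscreteValuationRing ↥(A.comap ι)]
  (W₁ : ModelField K₁ (M * p) ≃ₐ[K₁] ModelField K₁ (M * p))
  (hW₁ : ∀ f, ddBc ι (M * p) (W₁ f) = nmW M p hcop (ddBc ι (M * p) f))

include hW₁ in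
/-- **`V_0` descends** : `bc f₁ ∈ nmV0 ↔ f₁ ∈ vZero K₁ (A ∩ K₁) (M p) W₁`. -/
theorem ddBc_mem_nmV0_iff (f₁ : ModelField K₁ (M * p)) :
    ddBc ι (M * p) f₁ ∈ nmV0 M p hcop A ↔ f₁ ∈ vZero K₁ ↥(A.comap ι) (M * p) W₁ := by
  rw [mem_nmV0_iff, mem_vZero_iff, ← hW₁, ddBc_mem_gaussOBar_iff]

include hW₁ in
/-- **`𝔪(V_0)` descends** : `red_0 (bc f₁) = 0 ↔ f₁ ∈ (vZero K₁ (A ∩ K₁) (M p) W₁).nonunits`. -/
theorem ddBc_red0_eq_zero_iff (f₁ : ModelField K₁ (M * p))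
    (h : ddBc ι (M * p) f₁ ∈ nmV0 M p hcop A) :
    nmRed0 M p hcop A ⟨ddBc ι (M * p) f₁, h⟩ = 0 ↔
      f₁ ∈ (vZero K₁ ↥(A.comap ι) (M * p) W₁).nonunits := by
  rw [mem_nonunits_vZero_iff, nmRed0_apply]
  have h' : ddBc ι (M * p) (W₁ f₁) ∈ gaussOBar (M * p) A := by
    rw [hW₁]
    exact h
  rw [← ddBc_redOo_eq_zero_iff ι A (M * p) (W₁ f₁) h']
  have e : (⟨nmW M p hcop (ddBc ι (M * p) f₁), h⟩ : ↥(gaussOBar (M * p) A)) =
      ⟨ddBc ι (M * p) (W₁ f₁), h'⟩ := Subtype.ext (hW₁ f₁).symm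
  rw [e]

end AL

end Fermat.Agent.H30.ORD

end
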