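import Mathlib

/-!
# P-ORD, block B1, [BC](a) : Galois descent of subspaces by traces (helper30, Mathlib only)

* `gs_exists_trace_family` : for finitely many elements `θ` of a normal extension `L / K`
  (characteristic zero) there is a finite family of `K`-automorphisms `σ_k` of `L` such that
  `∑_k σ_k θ ∈ K` for all of them;
* `gs_span` : **Galois descent.**  `F` an `L`-vector space with a semilinear action of
  `Gal(L/K)`, `R ⊆ F` a `K`-subspace of fixed vectors, `W ⊆ F` a stable `L`-subspace.  Then
  `W ∩ span_L R ⊆ span_L (W ∩ R)`.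
-/

set_option autoImplicit false
set_option linter.unusedSectionVars false
set_option linter.unusedVariables false
set_option linter.style.haveILetI false

noncomputable section

namespace Fermat.Agent.H30.ORD

open IntermediateField

section Trace

variable {K L : Type} [Field K] [Field L] [Algebra K L] [CharZero K] [Normal K L]

/-- a finite family of automorphisms whose sum maps finitely many given elements into `K` -/
theorem gs_exists_trace_family (T : Finset L) :
    ∃ (ι : Type) (_ : Fintype ι) (σ : ι → (L ≃ₐ[K] L)), ((Fintype.card ι : ℕ) : L) ≠ 0 ∧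
      ∀ θ ∈ T, ∃ t : K, algebraMap K L t = ∑ i, σ i θ := by
  classical
  haveI : Algebra.IsAlgebraic K L := inferInstance
  haveI hfd : FiniteDimensional K ↥(adjoin K (T : Set L)) :=
    IntermediateField.finiteDimensional_adjoin
      (fun x _ => (Algebra.IsAlgebraic.isAlgebraic x).isIntegral)
  set E : IntermediateField K L := normalClosure K ↥(adjoin K (T : Set L)) L with hE
  haveI : Normal K ↥E := normalClosure.normal K ↥(adjoin K (T : Set L)) L
  haveI : FiniteDimensional K ↥E :=
    normalClosure.is_finiteDimensional K ↥(adjoin K (T : Set L)) L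
  haveI : IsGalois K ↥E := ⟨⟩
  haveI : CharZero L := charZero_of_injective_algebraMap (algebraMap K L).injective
  refine ⟨(↥E ≃ₐ[K] ↥E), inferInstance, fun τ => τ.liftNormal L, ?_, fun θ hθ => ?_⟩
  · exact Nat.cast_ne_zero.2 Fintype.card_ne_zero
  · have hθE : θ ∈ E :=
      (IntermediateField.le_normalClosure (adjoin K (T : Set L)))
        (IntermediateField.subset_adjoin K _ hθ)
    refine ⟨Algebra.trace K ↥E ⟨θ, hθE⟩, ?_⟩
    rw [IsScalarTower.algebraMap_apply K ↥E L, trace_eq_sum_automorphisms, map_sum]
    refine Finset.sum_congr rfl fun τ _ => ?_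
    exact (AlgEquiv.liftNormal_commutes τ L ⟨θ, hθE⟩).symm

end Trace

section Descent

variable {K L : Type} [Field K] [Field L] [Algebra K L] [CharZero K] [Normal K L]
  {F : Type} [AddCommGroup F] [Module L F]
  (act : (L ≃ₐ[K] L) → F → F)
  (hadd : ∀ σ x y, act σ (x + y) = act σ x + act σ y)
  (hsmul : ∀ σ (c : L) x, act σ (c • x) = σ c • act σ x)
  (R : Set F) (hRadd : ∀ x ∈ R, ∀ y ∈ R, x + y ∈ R)
  (hRsmul : ∀ (c : K), ∀ x ∈ R, (algebraMap K L c) • x ∈ R)
  (hRfix : ∀ σ, ∀ x ∈ R, act σ x = x)
  (W : Submodule L F) (hW : ∀ σ, ∀ x ∈ W, act σ x ∈ W)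

include hadd hsmul in
theorem gs_act_zero (σ : L ≃ₐ[K] L) : act σ 0 = 0 := by
  have h := hsmul σ 0 0
  rw [zero_smul, map_zero, zero_smul] at h
  exact h

include hadd hsmul in
theorem gs_act_sum {ι : Type} (s : Finset ι) (x : ι → F) (σ : L ≃ₐ[K] L) :
    act σ (∑ i ∈ s, x i) = ∑ i ∈ s, act σ (x i) := by
  classical
  induction s using Finset.induction_on with
  | empty => simpa using gs_act_zero act hadd hsmul σ
  | insert a s ha ih => rw [Finset.sum_insert ha, Finset.sum_insert ha, hadd, ih]

include hRadd hRsmul in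
theorem gs_R_sum {ι : Type} (s : Finset ι) (hs : s.Nonempty) (x : ι → F)
    (hx : ∀ i ∈ s, x i ∈ R) : ∑ i ∈ s, x i ∈ R := by
  classical
  induction hs using Finset.Nonempty.cons_induction with
  | singleton a =>
    rw [Finset.sum_singleton]
    exact hx a (Finset.mem_singleton_self a)
  | cons a s ha hs ih =>
    rw [Finset.sum_cons]
    exact hRadd _ (hx a (Finset.mem_cons_self a s)) _
      (ih fun i hi => hx i (Finset.mem_cons.2 (Or.inr hi)))

include hadd hsmul hRadd hRsmul hRfix hW in
/-- **Galois descent of subspaces** (induction on the length of a representation). -/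
theorem gs_span_aux (n : ℕ) : ∀ (f : F), f ∈ W → ∀ (θ : Fin n → L) (r : Fin n → F),
    (∀ i, r i ∈ R) → ∑ i, θ i • r i = f → f ∈ Submodule.span L ((W : Set F) ∩ R) := by
  classical
  induction n with
  | zero =>
    intro f _ θ r _ hf
    rw [← hf, Finset.univ_eq_empty, Finset.sum_empty]
    exact Submodule.zero_mem _
  | succ n ih =>
    intro f hfW θ r hr hf
    rw [Fin.sum_univ_succ] at hf
    by_cases h0 : θ 0 = 0
    · rw [h0, zero_smul, zero_add] at hf
      exact ih f hfW (fun i => θ i.succ) (fun i => r i.succ) (fun i => hr _) hf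
    · -- normalise the first coefficient
      set f' : F := (θ 0)⁻¹ • f with hf'
      have hf'W : f' ∈ W := W.smul_mem _ hfW
      set θ' : Fin n → L := fun i => (θ 0)⁻¹ * θ i.succ with hθ'
      have hf'eq : f' = r 0 + ∑ i, θ' i • r i.succ := by
        rw [hf', ← hf, smul_add, smul_smul, inv_mul_cancel₀ h0, one_smul, Finset.smul_sum]
        congr 1
        refine Finset.sum_congr rfl fun i _ => ?_
        rw [smul_smul]
      obtain ⟨ι, hι, σ, hd, hσ⟩ := gs_exists_trace_family (K := K) (Finset.univ.image θ')
      have hσ' : ∀ i, ∃ t : K, algebraMap K L t = ∑ k, σ k (θ' i) := fun i =>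
        hσ (θ' i) (Finset.mem_image_of_mem _ (Finset.mem_univ i))
      choose t ht using hσ'
      set d : L := ((Fintype.card ι : ℕ) : L) with hdd
      -- the trace of `f'`
      set f'' : F := ∑ k, act (σ k) f' with hf''
      have hact : ∀ k, act (σ k) f' = r 0 + ∑ i, σ k (θ' i) • r i.succ := by
        intro k
        rw [hf'eq, hadd, gs_act_sum act hadd hsmul, hRfix _ _ (hr 0)]
        congr 1
        refine Finset.sum_congr rfl fun i _ => ?_
        rw [hsmul, hRfix _ _ (hr _)]
      have hf''eq : f'' = d • r 0 + ∑ i, algebraMap K L (t i) • r i.succ := by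
        rw [hf'']
        simp only [hact]
        rw [Finset.sum_add_distrib, Finset.sum_const, Finset.card_univ, Finset.sum_comm]
        congr 1
        · rw [hdd, Nat.cast_smul_eq_nsmul]
        · refine Finset.sum_congr rfl fun i _ => ?_
          rw [ht i, Finset.sum_smul]
      have hcardK : (d : L) = algebraMap K L ((Fintype.card ι : ℕ) : K) := by
        rw [hdd, map_natCast]
      have hf''R : f'' ∈ R := by
        rw [hf''eq]
        by_cases hn : (Finset.univ : Finset (Fin n)).Nonempty
        · refine hRadd _ ?_ _ (gs_R_sum R hRadd hRsmul _ hn _ fun i _ => hRsmul _ _ (hr _))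
          rw [hcardK]
          exact hRsmul _ _ (hr 0)
        · rw [Finset.not_nonempty_iff_eq_empty] at hn
          rw [hn, Finset.sum_empty, add_zero, hcardK]
          exact hRsmul _ _ (hr 0)
      have hf''W : f'' ∈ W := by
        rw [hf'']
        exact W.sum_mem fun k _ => hW _ _ hf'W
      -- the remainder
      have he : f' - d⁻¹ • f'' = ∑ i, (θ' i - d⁻¹ * algebraMap K L (t i)) • r i.succ := by
        rw [hf'eq, hf''eq, smul_add, smul_smul, inv_mul_cancel₀ hd, one_smul, Finset.smul_sum]
        rw [add_sub_add_left_eq_sub, ← Finset.sum_sub_distrib]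
        refine Finset.sum_congr rfl fun i _ => ?_
        rw [sub_smul, smul_smul]
      have heW : f' - d⁻¹ • f'' ∈ W := W.sub_mem hf'W (W.smul_mem _ hf''W)
      have h1 := ih _ heW _ (fun i => r i.succ) (fun i => hr _) he.symm
      have h2 : d⁻¹ • f'' ∈ Submodule.span L ((W : Set F) ∩ R) :=
        Submodule.smul_mem _ _ (Submodule.subset_span ⟨hf''W, hf''R⟩)
      have h3 : f' ∈ Submodule.span L ((W : Set F) ∩ R) := by
        have := Submodule.add_mem _ h1 h2
        rwa [sub_add_cancel] at this
      have h4 : f = θ 0 • f' := by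
        rw [hf', smul_smul, mul_inv_cancel₀ h0, one_smul]
      rw [h4]
      exact Submodule.smul_mem _ _ h3

include hadd hsmul hRadd hRsmul hRfix hW in
/-- **Galois descent of subspaces** : `W ∩ span_L R ⊆ span_L (W ∩ R)`. -/
theorem gs_span (f : F) (hfW : f ∈ W) (hf : f ∈ Submodule.span L R) :
    f ∈ Submodule.span L ((W : Set F) ∩ R) := by
  rw [Submodule.mem_span_set'] at hf
  obtain ⟨n, θ, g, hg⟩ := hf
  exact gs_span_aux act hadd hsmul R hRadd hRsmul hRfix W hW n f hfW θ (fun i => (g i : F))
    (fun i => (g i).2) hg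

end Descent

end Fermat.Agent.H30.ORD

end
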