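import Fermat.Agent.H30.ORD.DescCentre
import Fermat.Agent.H30.ORD.ChartOverlap
import Fermat.Agent.H82.SS.Model
import Fermat.Agent.H70.SS.RatPlaceModular
import Fermat.Agent.H23.PlaceBasic

/-!
# P-ORD, block B1, row 1155 [HART] : the final descent assembly (helper30)

`nmHartogs_of_modelBar : HartModelBarStatement M p → NmHartogsStatement M p`, where
`HartModelBarStatement M p` is the model-level local Hartogs theorem over a number field
`(K₁, A ∩ K₁)` at the centre of a `ℚ̄`-place `P`, with the horizontal hypothesis at the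
`ℚ̄`-level (helper91's `nmHartModelBar`).

Descent: `K₁` contains the coefficients of `g` and the number fields of
`exists_not_through_oo / exists_not_through_zero`; `𝔪 = ddCentre`; `W₁` from `exists_modelW`.
-/

set_option autoImplicit false
set_option linter.unusedSectionVars false
set_option linter.unusedVariables false
set_option linter.style.haveILetI false
set_option synthInstance.maxHeartbeats 400000
set_option maxHeartbeats 1600000

noncomputable section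

namespace Fermat.Agent.H30.ORD

open Polynomial ModularCurve AlgebraicCurve
open Fermat.Agent.H22.KL Fermat.Agent.H9.E6 Fermat.Agent.H84.ORD Fermat.Agent.H72.FF
open Fermat.Agent.H7.SS Fermat.Agent.H7.SS2 Fermat.Agent.H66
open Fermat.Agent.H82.SS (IsAtkinLehnerModel)

/-- **MODEL-LEVEL LOCAL HARTOGS at the centre of a `ℚ̄`-place** (hypothesis of the assembly;
= helper91's `nmHartModelBar`). -/
def HartModelBarStatement (M p : ℕ) [NeZero M] [NeZero p] : Prop :=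
  ∀ (A : ValuationSubring Qb) (K₁ : Type) [Field K₁] [Algebra ℚ K₁] [FiniteDimensional ℚ K₁]
    (ι : K₁ →+* Qb) [IsDiscreteValuationRing ↥(A.comap ι)]
    [Algebra ↥(A.comap ι) (ModelField K₁ (M * p))]
    [IsScalarTower ↥(A.comap ι) K₁ (ModelField K₁ (M * p))]
    (_hqA : ¬ IsUnit ((p : ℕ) : ↥(A.comap ι))) (_hp : p.Prime) (_hpM : ¬ p ∣ M)
    (x : ModelField K₁ (M * p)) (_hx : (x : LaurentSeries K₁) = coeffEmb K₁ jq)
    (W : ModelField K₁ (M * p) ≃ₐ[K₁] ModelField K₁ (M * p))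
    (_hW : IsAtkinLehnerModel K₁ M p W)
    (y₁ : ModelField K₁ (M * p)) (_hy₁ : y₁ = x ∨ y₁ = x⁻¹)
    (P : Place Qb (FLb (M * p))) (_hy : ddBc ι (M * p) y₁ = nmY A P)
    (𝔪 : Ideal ↥(chartClosure ↥(A.comap ι) (ModelField K₁ (M * p)) y₁)) (_h𝔪 : 𝔪.IsMaximal)
    (_hmP : ∀ r : ↥(chartClosure ↥(A.comap ι) (ModelField K₁ (M * p)) y₁),
      ddBc ι (M * p) (r : ModelField K₁ (M * p)) ∈ nmMax A P ↔ r ∈ 𝔪)
    (g₁ : ModelField K₁ (M * p)),
    ((∀ f : ↥(chartClosure ↥(A.comap ι) (ModelField K₁ (M * p)) y₁),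
        (f : ModelField K₁ (M * p)) ∈ (vInf K₁ ↥(A.comap ι) (M * p)).nonunits → f ∈ 𝔪) →
      g₁ ∈ vInf K₁ ↥(A.comap ι) (M * p)) →
    ((∀ f : ↥(chartClosure ↥(A.comap ι) (ModelField K₁ (M * p)) y₁),
        (f : ModelField K₁ (M * p)) ∈ (vZero K₁ ↥(A.comap ι) (M * p) W).nonunits → f ∈ 𝔪) →
      g₁ ∈ vZero K₁ ↥(A.comap ι) (M * p) W) →
    (∀ P' : Place Qb (FLb (M * p)), nmCentre A P' = nmCentre A P →
      ddBc ι (M * p) g₁ ∈ P'.toValuationSubring) →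
    ∃ b : ↥(chartClosure ↥(A.comap ι) (ModelField K₁ (M * p)) y₁), b ∉ 𝔪 ∧
      (b : ModelField K₁ (M * p)) * g₁ ∈ chartClosure ↥(A.comap ι) (ModelField K₁ (M * p)) y₁

section Aux

theorem nh_numberField_of_fd (K₁ : Type) [Field K₁] [Algebra ℚ K₁]
    [hfd : FiniteDimensional ℚ K₁] : NumberField K₁ := by
  have : CharZero K₁ := algebraRat.charZero K₁
  refine @NumberField.mk K₁ _ inferInstance ?_
  convert hfd
  exact Subsingleton.elim _ _

/-- the `j`-function over `K₁` -/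
def nhJ (K₁ : Type) [Field K₁] [Algebra ℚ K₁] (N : ℕ) [NeZero N] : ModelField K₁ N :=
  ⟨coeffEmb K₁ jq, coeffEmb_mem_laurentBaseChange K₁ (by
    have h := jqd_mem_full N (one_dvd N)
    rwa [qExpand_one_apply] at h)⟩

theorem nhJ_coe (K₁ : Type) [Field K₁] [Algebra ℚ K₁] (N : ℕ) [NeZero N] :
    ((nhJ K₁ N : ModelField K₁ N) : LaurentSeries K₁) = coeffEmb K₁ jq := rfl

theorem ddBc_nhJ {K₁ : Type} [Field K₁] [Algebra ℚ K₁] (ι : K₁ →+* Qb) (N : ℕ) [NeZero N] :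
    ddBc ι N (nhJ K₁ N) = nmJ N := by
  apply ddBc_eq_of_coeffEmb ι N (nhJ K₁ N) (nmJ N) jq rfl
  show coeffEmb Qb (qExpand ℚ 1 jq) = coeffEmb Qb jq
  rw [qExpand_one_apply]

/-- the chart of `P` over `K₁` -/
theorem nh_exists_chart {K₁ : Type} [Field K₁] [Algebra ℚ K₁] (ι : K₁ →+* Qb) (N : ℕ)
    [NeZero N] (A : ValuationSubring Qb) (P : Place Qb (FLb N)) :
    ∃ y₁ : ModelField K₁ N, (y₁ = nhJ K₁ N ∨ y₁ = (nhJ K₁ N)⁻¹) ∧ ddBc ι N y₁ = nmY A P := by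
  rcases nmY_eq_or A P with h | h
  · exact ⟨nhJ K₁ N, Or.inl rfl, by rw [ddBc_nhJ, h]⟩
  · exact ⟨(nhJ K₁ N)⁻¹, Or.inr rfl, by rw [map_inv₀, ddBc_nhJ, h]⟩

end Aux

/-- **[HART] at the `ℚ̄`-level from the model-level Hartogs at the centre of a place.** -/
theorem nmHartogs_of_modelBar (M p : ℕ) [NeZero M] [NeZero p]
    (hH : HartModelBarStatement M p) : NmHartogsStatement M p := by
  classical
  intro A h P g hOo hZero hpl
  haveI : NeZero (M * p) := ⟨Nat.mul_ne_zero (NeZero.ne M) (NeZero.ne p)⟩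
  have hdeg : P.deg = 1 := Fermat.Agent.H70.SS.ss_deg_eq_one_bar (M * p) P
  have hpM : ¬ p ∣ M := by
    intro hd
    have h1 : p ∣ Nat.gcd M p := Nat.dvd_gcd hd dvd_rfl
    rw [h.cop] at h1
    exact h.prime.one_lt.ne' (Nat.dvd_one.1 h1)
  -- the number fields
  obtain ⟨Kg, hKg, hG⟩ :=
    Fermat.Agent.H61.coeffDescent (modularFunctionFieldFull (M * p)) (g : LaurentSeries Qb) g.2
  have hKoo : ∃ K₀ : IntermediateField ℚ Qb, FiniteDimensional ℚ ↥K₀ ∧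
      ∀ (K₁ : Type) [Field K₁] [Algebra ℚ K₁] (ι : K₁ →+* Qb)
        [IsDiscreteValuationRing ↥(A.comap ι)]
        [Algebra ↥(A.comap ι) (ModelField K₁ (M * p))]
        [IsScalarTower ↥(A.comap ι) K₁ (ModelField K₁ (M * p))],
        (∀ c ∈ K₀, c ∈ ι.range) →
        ∀ (y₁ : ModelField K₁ (M * p)) (hy₁ : ddBc ι (M * p) y₁ = nmY A P),
          (∀ s : ↥(chartClosure ↥(A.comap ι) (ModelField K₁ (M * p)) y₁),
            (s : ModelField K₁ (M * p)) ∈ (vInf K₁ ↥(A.comap ι) (M * p)).nonunits →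
            s ∈ ddCentre ι A (M * p) P hdeg y₁
              (ddBc_y_mem_nmComp M p ι A P hdeg y₁ hy₁)) →
          NmIdealOo M p A P := by
    by_cases hI : NmIdealOo M p A P
    · exact ⟨⊥, inferInstance, fun _ _ _ _ _ _ _ _ _ _ _ => hI⟩
    · obtain ⟨K₀, hK₀, hX⟩ := exists_not_through_oo M p A P hdeg hI
      refine ⟨K₀, hK₀, fun K₁ _ _ ι _ _ _ hK₁ y₁ hy₁ hth => ?_⟩
      obtain ⟨s, hs, hsn⟩ := hX K₁ ι hK₁ y₁ hy₁
      exact absurd (hth s hs) hsn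
  have hKzero : ∃ K₀ : IntermediateField ℚ Qb, FiniteDimensional ℚ ↥K₀ ∧
      ∀ (K₁ : Type) [Field K₁] [Algebra ℚ K₁] (ι : K₁ →+* Qb)
        [IsDiscreteValuationRing ↥(A.comap ι)]
        [Algebra ↥(A.comap ι) (ModelField K₁ (M * p))]
        [IsScalarTower ↥(A.comap ι) K₁ (ModelField K₁ (M * p))],
        (∀ c ∈ K₀, c ∈ ι.range) →
        ∀ (y₁ : ModelField K₁ (M * p)) (hy₁ : ddBc ι (M * p) y₁ = nmY A P)
          (W₁ : ModelField K₁ (M * p) ≃ₐ[K₁] ModelField K₁ (M * p)),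
          (∀ f, ddBc ι (M * p) (W₁ f) = nmW M p h.cop (ddBc ι (M * p) f)) →
          (∀ s : ↥(chartClosure ↥(A.comap ι) (ModelField K₁ (M * p)) y₁),
            (s : ModelField K₁ (M * p)) ∈ (vZero K₁ ↥(A.comap ι) (M * p) W₁).nonunits →
            s ∈ ddCentre ι A (M * p) P hdeg y₁
              (ddBc_y_mem_nmComp M p ι A P hdeg y₁ hy₁)) →
          NmIdealZero M p h.cop A P := by
    by_cases hI : NmIdealZero M p h.cop A P
    · exact ⟨⊥, inferInstance, fun _ _ _ _ _ _ _ _ _ _ _ _ _ => hI⟩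
    · obtain ⟨K₀, hK₀, hX⟩ := exists_not_through_zero M p h.cop A P hdeg hI
      refine ⟨K₀, hK₀, fun K₁ _ _ ι _ _ _ hK₁ y₁ hy₁ W₁ hW₁ hth => ?_⟩
      obtain ⟨s, hs, hsn⟩ := hX K₁ ι hK₁ y₁ hy₁ W₁ hW₁
      exact absurd (hth s hs) hsn
  obtain ⟨Koo, hKoofd, hOoK⟩ := hKoo
  obtain ⟨Kz, hKzfd, hZeroK⟩ := hKzero
  -- the number field `K`
  set K : IntermediateField ℚ Qb := Kg ⊔ Koo ⊔ Kz with hK
  haveI hKfd : FiniteDimensional ℚ ↥K := by
    have := hKg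
    have := hKoofd
    have := hKzfd
    haveI : FiniteDimensional ℚ ↥(Kg ⊔ Koo) := IntermediateField.finiteDimensional_sup Kg Koo
    exact IntermediateField.finiteDimensional_sup (Kg ⊔ Koo) Kz
  set ι : ↥K →+* Qb := algebraMap ↥K Qb with hι
  have hrange : ∀ c ∈ K, c ∈ ι.range := fun c hc => ⟨⟨c, hc⟩, rfl⟩
  have hKg_le : Kg ≤ K := le_trans le_sup_left le_sup_left
  have hKoo_le : Koo ≤ K := le_trans le_sup_right le_sup_left
  have hKz_le : Kz ≤ K := le_sup_right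
  haveI : NumberField ↥K := nh_numberField_of_fd ↥K
  have hpL : ((p : ℕ) : Qb) ≠ 0 := Nat.cast_ne_zero.mpr h.prime.ne_zero
  haveI hDVR : IsDiscreteValuationRing ↥(A.comap ι) :=
    Fermat.Agent.H93.KL.comap_isDiscreteValuationRing ι A hpL h.liesOver
  letI := modelAlgebra ↥K (A.comap ι) (M * p)
  haveI := modelAlgebra_isScalarTower ↥K (A.comap ι) (M * p)
  have hnu : ¬ IsUnit ((p : ℕ) : ↥(A.comap ι)) := by
    have h1 := Fermat.Agent.H93.KL.natCast_mem_nonunits_comap ι A h.liesOver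
    rw [ValuationSubring.mem_nonunits_iff_exists_mem_maximalIdeal] at h1
    obtain ⟨hmem, hmax⟩ := h1
    rw [IsLocalRing.mem_maximalIdeal, mem_nonunits_iff] at hmax
    intro hu
    apply hmax
    have e : (⟨(p : ↥K), hmem⟩ : ↥(A.comap ι)) = ((p : ℕ) : ↥(A.comap ι)) :=
      Subtype.ext (by simp)
    rw [e]
    exact hu
  -- the data over `K`
  obtain ⟨y₁, hy₁x, hy₁⟩ := nh_exists_chart ι (M * p) A P
  obtain ⟨W₁, hW₁AL, hW₁, -⟩ := exists_modelW M p h.cop ι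
  obtain ⟨g₁, hg₁, hg₁g⟩ := hG ↥K ι (fun c hc => hrange c (hKg_le hc))
  have hbc : ddBc ι (M * p) ⟨g₁, hg₁⟩ = g := Subtype.ext hg₁g
  set 𝔪 := ddCentre ι A (M * p) P hdeg y₁ (ddBc_y_mem_nmComp M p ι A P hdeg y₁ hy₁) with h𝔪
  have h𝔪max : 𝔪.IsMaximal := ddCentre_isMaximal ι A (M * p) P hdeg y₁ _
  obtain ⟨b, hb𝔪, hbg⟩ := hH A ↥K ι hnu h.prime hpM (nhJ ↥K (M * p)) (nhJ_coe ↥K (M * p))
    W₁ hW₁AL y₁ hy₁x P hy₁ 𝔪 h𝔪max
    (fun r => (mem_ddCentre_iff ι A (M * p) P hdeg y₁ _ r).symm) ⟨g₁, hg₁⟩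
    (fun hth => by
      have hI := hOoK ↥K ι (fun c hc => hrange c (hKoo_le hc)) y₁ hy₁ hth
      have hgV := hOo hI
      rw [← hbc] at hgV
      exact (ddBc_mem_gaussOBar_iff ι A (M * p) _).1 hgV)
    (fun hth => by
      have hI := hZeroK ↥K ι (fun c hc => hrange c (hKz_le hc)) y₁ hy₁ W₁ hW₁ hth
      have hgV := hZero hI
      rw [← hbc] at hgV
      exact (ddBc_mem_nmV0_iff M p h.cop ι A W₁ hW₁ _).1 hgV)
    (fun P' hP' => by
      rw [hbc]
      exact (Fermat.Agent.H23.mem_iff_ord P').2 (hpl P' hP'))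
  refine ⟨ddBc ι (M * p) (b : ModelField ↥K (M * p)), ?_, ?_, ?_⟩
  · rw [← hy₁]
    exact ddBc_mem_nmChart ι A (M * p) y₁ _ b.2
  · intro hmem
    exact hb𝔪 ((mem_ddCentre_iff ι A (M * p) P hdeg y₁ _ b).2 hmem)
  · rw [← hbc, ← map_mul, ← hy₁]
    exact ddBc_mem_nmChart ι A (M * p) y₁ _ hbg

end Fermat.Agent.H30.ORD

end
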